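-- S05: the mod-p Galois representation of the Frey curve is unramified at every odd prime q ≠ p.
import Fermat.Statements.S05
import Fermat.Agent.Unram.Core
import Fermat.Agent.Unram.FreyModel

set_option autoImplicit false
open WeierstrassCurve WeierstrassCurve.Affine WeierstrassCurve.Affine.Point
open CuspForm ModularFormClass UpperHalfPlane
open FreyPackage

namespace Fermat.Agent.S05

open Fermat.Agent.Unram in
/-- The generic form (any algebraic closure `L` of `ℚ`): inertia at an odd prime `q ≠ p` acts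
trivially on the `p`-torsion of the Frey curve. -/
theorem unramified_generic {L : Type} [Field L] [DecidableEq L] [Algebra ℚ L] [IsAlgClosed L]
    [Algebra.IsAlgebraic ℚ L] (P : FreyPackage) {q : ℕ} (hq : q.Prime) (hq2 : q ≠ 2)
    (hqp : q ≠ P.p) :
    WeierstrassCurve.Affine.Point.GaloisRepUnramifiedAt (K := L) ℚ P.freyCurve P.p q := by
  intro A hA σ hσ x
  obtain ⟨α, β, m, h1, h2, h3, h4, φ, hφ, hφσ⟩ := exists_freyModel P (L := L) hq
  apply Subtype.ext
  apply hφ
  show φ (σ • x.1) = φ x.1
  rw [hφσ σ x.1]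
  have hp2 : P.p ≠ 2 := by have := P.hp5; omega
  have hx : (P.p : ℤ) • φ x.1 = 0 := by
    rw [← map_zsmul]
    have := x.2
    rw [Submodule.mem_torsionBy_iff] at this
    rw [this, _root_.map_zero]
  exact core A hq hq2 hA P.pp hp2 (Ne.symm hqp) α β h1 h2 h3 m h4 σ hσ (φ x.1) hx

theorem result (P : FreyPackage) {q : ℕ} (hq : q.Prime) (hq2 : q ≠ 2) (hqp : q ≠ P.p) : P.GaloisRepUnramifiedAt q :=
  unramified_generic P hq hq2 hqp

end Fermat.Agent.S05
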