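import Fermat.Statements.S08
import Fermat.Prelude.Thm_ModularForm_sturm_bound_Gamma0
import Fermat.Prelude.Thm_CongruenceSubgroup_one_mem_strictPeriods_Gamma0

set_option autoImplicit false
open WeierstrassCurve WeierstrassCurve.Affine WeierstrassCurve.Affine.Point
open CuspForm ModularFormClass UpperHalfPlane
open ModularForm

namespace Fermat.Agent.S08

open scoped MatrixGroups

/-- `Γ₀(1)` is all of `SL(2, ℤ)`. -/
theorem gamma0_one_eq_top : CongruenceSubgroup.Gamma0 1 = ⊤ := by
  ext g
  simp [CongruenceSubgroup.Gamma0_mem, eq_iff_true_of_subsingleton]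

theorem result (f : CuspForm (CongruenceSubgroup.Gamma0 1) 2) : f = 0 := by
  have hper := CongruenceSubgroup.one_mem_strictPeriods_Gamma0 1
  have h0 : (qExpansion 1 f).coeff 0 = 0 :=
    CuspFormClass.qExpansion_coeff_zero f one_pos hper
  have key := ModularForm.sturm_bound_Gamma0 1 (k := 2)
    (ModularFormClass.modularForm f : ModularForm (CongruenceSubgroup.Gamma0 1) 2) ?_
  · ext z
    have := congrArg (fun g : ModularForm (CongruenceSubgroup.Gamma0 1) 2 => g z) key
    simpa using this
  · intro n hn
    have hidx : (CongruenceSubgroup.Gamma0 1).index = 1 := by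
      rw [gamma0_one_eq_top]; exact Subgroup.index_top
    rw [hidx] at hn
    have : n = 0 := by
      have h2 : Int.toNat (2 * ((1 : ℕ) : ℤ)) = 2 := by decide
      rw [h2] at hn
      omega
    subst this
    exact h0

end Fermat.Agent.S08
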