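-- Statement S20 (row 19): `dim S₂(Γ₀(N))` equals the classical genus formula of `X₀(N)`.
-- Proof: level one: both sides vanish (`S08`).  For `1 < N`: the field `ℂ(j, j_N)` of modular
-- functions (`X0/Mod/CuspInputs`, `X0/Mod/FieldC2`) has `[ℂ(j, j_N) : ℂ(j)] = ψ(N)` and the total
-- ramification of `j` is computed by the monodromy of `S`, `ST`, `T` on `Γ₀(N) \ SL₂(ℤ)`
-- (`X0/Mod/Monodromy`, `X0/Mod/MonodromyCountMain`, `X0/FF/Main`), which gives the genus formula;
-- "Riemann-Roch lite" (`X0/FF/RRLite`) produces a space of holomorphic differentials `y dj` of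
-- dimension `g`; the dictionary `y ↦ y * Dj` (`X0/Mod/DictionaryAn`) embeds it into `S₂(Γ₀(N))`;
-- the upper bound is Eichler-Shimura (`X0/ES/Main`).
import Fermat.Statements.S20
import Fermat.Agent.X0.S20Core
import Fermat.Agent.X0.Mod.FieldC2
import Fermat.Agent.X0.FF.RRLite

set_option autoImplicit false
open CuspForm

namespace Fermat.Agent.S20

theorem result (N : ℕ) [NeZero N] :
    (Module.finrank ℂ (CuspForm (CongruenceSubgroup.Gamma0 N) 2) : ℚ) = ModularCurve.genusFormula N := by
  rcases eq_or_ne N 1 with rfl | hN1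
  · exact Fermat.Agent.X0.S20Core.finrank_cuspForm_one
  · have hN : 1 < N := by
      have := NeZero.ne N
      omega
    obtain ⟨V, hV, -, hRR⟩ := Fermat.Agent.X0.RRLite.exists_holDiff_ramIdx
      (Fermat.Agent.X0.FieldC2.isFFGen_xC N)
    exact Fermat.Agent.X0.S20Core.finrank_cuspForm_eq (Fermat.Agent.X0.FieldC2.coe_xC N)
      (Fermat.Agent.X0.FieldC2.isFFGen_xC N) (Fermat.Agent.X0.FieldC2.ramification_count N hN)
      V hV hRR.le

end Fermat.Agent.S20
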