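import Mathlib
import Fermat.Agent.S49_Basic
import Fermat.Prelude.Def_CuspForm_IntegralLattice
import Fermat.Prelude.Def_FormalHecke_Eigensystem

set_option autoImplicit false

/-!
The integral lattice in `S₂(Γ₀(N))`, the Hecke algebra acting on it, and the "mod 3" ideal
attached to an integral form.
-/

namespace Fermat.Agent.S49

open CongruenceSubgroup ModularFormClass UpperHalfPlane EisensteinWeightOne

variable {N : ℕ}

/-- A cusp form with integral `q`-expansion. -/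
def IsInt (f : CuspForm (Gamma0 N) 2) : Prop := ∀ n : ℕ, ∃ m : ℤ, qCoeff ⇑f n = (m : ℂ)

theorem mem_intLattice_iff (f : CuspForm (Gamma0 N) 2) :
    f ∈ CuspForm.intLattice N 2 ↔ IsInt f :=
  P2MW.S_CuspForm_intLattice_fg.W3WsD.mem_intLattice_iff f

theorem isInt_of_mem_qIntegralSet {f : CuspForm (Gamma0 N) 2} (hf : f ∈ CuspForm.qIntegralSet N) :
    IsInt f := by
  intro n
  obtain ⟨m, hm⟩ := Subring.mem_bot.mp (hf n)
  exact ⟨m, by rw [← hm]⟩

theorem qIntegralSet_subset_intLattice :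
    CuspForm.qIntegralSet N ⊆ (CuspForm.intLattice N 2 : Set (CuspForm (Gamma0 N) 2)) :=
  fun f hf => (mem_intLattice_iff f).mpr (isInt_of_mem_qIntegralSet hf)

theorem span_intLattice_eq_top (h : CuspForm.HasIntegralBasis N) :
    Submodule.span ℂ (CuspForm.intLattice N 2 : Set (CuspForm (Gamma0 N) 2)) = ⊤ := by
  rw [eq_top_iff, ← h]
  exact Submodule.span_mono qIntegralSet_subset_intLattice

theorem finiteDimensional_of_hasIntegralBasis [NeZero N] (h : CuspForm.HasIntegralBasis N) :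
    FiniteDimensional ℂ (CuspForm (Gamma0 N) 2) := by
  obtain ⟨S, hS⟩ := CuspForm.intLattice_fg N 2
  refine ⟨⟨S, ?_⟩⟩
  rw [eq_top_iff, ← span_intLattice_eq_top h]
  apply Submodule.span_le.mpr
  intro f hf
  have hf' : f ∈ Submodule.span ℤ (S : Set (CuspForm (Gamma0 N) 2)) := by rw [hS]; exact hf
  exact Submodule.span_le_restrictScalars ℤ ℂ _ hf'

variable [NeZero N]

theorem isInt_hecke (T : CuspForm.heckeAlgebra N 2 (∅ : Set ℕ)) {f : CuspForm (Gamma0 N) 2}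
    (hf : IsInt f) : IsInt (T.1 f) :=
  (mem_intLattice_iff _).mp
    (CuspForm.mem_intLattice_of_mem_heckeAlgebra (by norm_num) T.2 ((mem_intLattice_iff f).mpr hf))

omit [NeZero N] in
theorem exists_eq_three_smul {g : CuspForm (Gamma0 N) 2}
    (hg : ∀ n : ℕ, ∃ m : ℤ, qCoeff ⇑g n = 3 * (m : ℂ)) :
    ∃ h : CuspForm (Gamma0 N) 2, IsInt h ∧ g = (3 : ℂ) • h := by
  refine ⟨(3 : ℂ)⁻¹ • g, ?_, ?_⟩
  · intro n
    obtain ⟨m, hm⟩ := hg n
    exact ⟨m, by rw [qCoeff_smul, hm]; field_simp⟩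
  · rw [smul_smul, mul_inv_cancel₀ (by norm_num), one_smul]

/-- The ideal of Hecke operators sending `f` into `3 • (integral forms)`. -/
def modThreeIdeal (f : CuspForm (Gamma0 N) 2) : Ideal (CuspForm.heckeAlgebra N 2 (∅ : Set ℕ)) where
  carrier := {T | ∀ n : ℕ, ∃ m : ℤ, qCoeff ⇑(T.1 f) n = 3 * (m : ℂ)}
  add_mem' := by
    intro S T hS hT n
    obtain ⟨a, ha⟩ := hS n
    obtain ⟨b, hb⟩ := hT n
    refine ⟨a + b, ?_⟩
    have : (S + T).1 f = S.1 f + T.1 f := rfl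
    rw [this, qCoeff_add, ha, hb]
    push_cast; ring
  zero_mem' := by
    intro n
    refine ⟨0, ?_⟩
    have : (0 : CuspForm.heckeAlgebra N 2 (∅ : Set ℕ)).1 f = 0 := rfl
    rw [this, qCoeff_zero]; simp
  smul_mem' := by
    intro S T hT n
    obtain ⟨h, hh, hTf⟩ := exists_eq_three_smul hT
    obtain ⟨m, hm⟩ := isInt_hecke S hh n
    refine ⟨m, ?_⟩
    have : (S • T).1 f = S.1 (T.1 f) := rfl
    rw [this, hTf, map_smul, qCoeff_smul, hm]

theorem mem_modThreeIdeal {f : CuspForm (Gamma0 N) 2} {T : CuspForm.heckeAlgebra N 2 (∅ : Set ℕ)} :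
    T ∈ modThreeIdeal f ↔ ∀ n : ℕ, ∃ m : ℤ, qCoeff ⇑(T.1 f) n = 3 * (m : ℂ) := Iff.rfl

theorem algebraMap_apply_form (c : ℤ) (f : CuspForm (Gamma0 N) 2) :
    (algebraMap ℤ (CuspForm.heckeAlgebra N 2 (∅ : Set ℕ)) c).1 f = (c : ℂ) • f := by
  have h1 : ((algebraMap ℤ (CuspForm.heckeAlgebra N 2 (∅ : Set ℕ)) c) :
      Module.End ℂ (CuspForm (Gamma0 N) 2)) =
      algebraMap ℤ (Module.End ℂ (CuspForm (Gamma0 N) 2)) c := rfl
  rw [h1]
  simp only [eq_intCast, Module.End.intCast_apply]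
  exact (Int.cast_smul_eq_zsmul ℂ c f).symm

theorem algebraMap_mem_modThreeIdeal {f : CuspForm (Gamma0 N) 2} (hf : IsInt f) {c : ℤ}
    (hc : (3 : ℤ) ∣ c) :
    algebraMap ℤ (CuspForm.heckeAlgebra N 2 (∅ : Set ℕ)) c ∈ modThreeIdeal f := by
  intro n
  obtain ⟨d, rfl⟩ := hc
  obtain ⟨m, hm⟩ := hf n
  refine ⟨d * m, ?_⟩
  rw [algebraMap_apply_form, qCoeff_smul, hm]
  push_cast; ring

theorem dvd_of_algebraMap_mem_modThreeIdeal {f : CuspForm (Gamma0 N) 2} {af : ℕ → ℤ}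
    (haf : ∀ n, (af n : ℂ) = qCoeff ⇑f n) (h1 : ¬ (3 : ℤ) ∣ af 1) {c : ℤ}
    (hc : algebraMap ℤ (CuspForm.heckeAlgebra N 2 (∅ : Set ℕ)) c ∈ modThreeIdeal f) :
    (3 : ℤ) ∣ c := by
  obtain ⟨m, hm⟩ := hc 1
  rw [algebraMap_apply_form, qCoeff_smul, ← haf 1] at hm
  have hm' : c * af 1 = 3 * m := by exact_mod_cast hm
  have h3 : Prime (3 : ℤ) := Int.prime_three
  rcases h3.dvd_or_dvd ⟨m, hm'⟩ with h | h
  · exact h
  · exact absurd h h1

end Fermat.Agent.S49
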