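-- Statement S23 (row 22): `S₂(Γ₀(N))` is spanned by forms with integral `q`-expansion.
-- Proof: the lattice of periods (`X0/Int/PeriodLattice`) is a finitely generated Hecke-stable
-- lattice in the dual of `S₂(Γ₀(N))` spanning over `ℝ`, of rank at most `2 * dim` by the dimension
-- formula `S20` and the parabolic cohomology bound; `X0/Int/Main` converts such a lattice into an
-- integral structure via the Hecke pairing and the real structure `f ↦ conj f`.
import Fermat.Statements.S23
import Fermat.Agent.S20
import Fermat.Agent.X0.Int.PeriodMain

set_option autoImplicit false
open CuspForm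

namespace Fermat.Agent.S23

theorem result (N : ℕ) [NeZero N] : CuspForm.HasIntegralStructure N 2 :=
  Fermat.Agent.X0.IntPeriod.hasIntegralStructure_of_genus_le N
    (le_of_eq (Fermat.Agent.S20.result N).symm)

end Fermat.Agent.S23
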