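import Fermat.Statements.S02

set_option autoImplicit false
open FreyPackage

namespace Fermat.Agent.S02

/-- Core case: `gcd a b = 1` and `b` even. -/
theorem of_coprime_b_even {a b c : ℤ} (ha : a ≠ 0) (hb : b ≠ 0) (hc : c ≠ 0)
    {p : ℕ} (pp : p.Prime) (hp5 : 5 ≤ p) (H : a ^ p + b ^ p = c ^ p)
    (hgcdab : gcd a b = 1) (hb2 : (2 : ℤ) ∣ b) : Nonempty FreyPackage := by
  have p_odd : Odd p := pp.odd_of_ne_two (by omega)
  have ha_odd : ¬ (2 : ℤ) ∣ a := by
    intro h2a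
    have h2 : (2 : ℤ) ∣ gcd a b := dvd_gcd h2a hb2
    rw [hgcdab] at h2
    norm_num at h2
  have hb2' : (b : ZMod 2) = 0 := (ZMod.intCast_zmod_eq_zero_iff_dvd b 2).2 hb2
  have h13 : a % 4 = 1 ∨ a % 4 = 3 := by omega
  rcases h13 with h1 | h3
  · refine ⟨⟨-a, -b, -c, neg_ne_zero.2 ha, neg_ne_zero.2 hb, neg_ne_zero.2 hc, p, pp, hp5,
      ?_, ?_, ?_, ?_⟩⟩
    · rw [p_odd.neg_pow, p_odd.neg_pow, p_odd.neg_pow, ← H]; ring
    · rw [gcd_neg, neg_gcd]; exact hgcdab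
    · have h4 : ((-a : ℤ) : ZMod 4) = ((3 : ℤ) : ZMod 4) := by
        rw [ZMod.intCast_eq_intCast_iff']
        push_cast
        omega
      simpa using h4
    · simp [hb2']
  · refine ⟨⟨a, b, c, ha, hb, hc, p, pp, hp5, H, hgcdab, ?_, hb2'⟩⟩
    have h4 : ((a : ℤ) : ZMod 4) = ((3 : ℤ) : ZMod 4) := by
      rw [ZMod.intCast_eq_intCast_iff']
      push_cast
      omega
    simpa using h4

/-- Coprime case. -/
theorem of_coprime {a b c : ℤ} (ha : a ≠ 0) (hb : b ≠ 0) (hc : c ≠ 0)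
    {p : ℕ} (pp : p.Prime) (hp5 : 5 ≤ p) (H : a ^ p + b ^ p = c ^ p)
    (hgcdab : gcd a b = 1) : Nonempty FreyPackage := by
  have p_odd : Odd p := pp.odd_of_ne_two (by omega)
  have hp0 : 0 < p := by omega
  by_cases hb2 : (2 : ℤ) ∣ b
  · exact of_coprime_b_even ha hb hc pp hp5 H hgcdab hb2
  by_cases ha2 : (2 : ℤ) ∣ a
  · refine of_coprime_b_even hb ha hc pp hp5 (by rw [add_comm]; exact H) ?_ ha2
    rw [gcd_comm]; exact hgcdab
  -- both odd, so c even
  have hc2 : (2 : ℤ) ∣ c := by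
    have hao : Odd a := by
      rw [← Int.not_even_iff_odd, even_iff_two_dvd]; exact ha2
    have hbo : Odd b := by
      rw [← Int.not_even_iff_odd, even_iff_two_dvd]; exact hb2
    have hce : Even (c ^ p) := by
      rw [← H]
      exact (hao.pow).add_odd (hbo.pow)
    have := (Int.even_pow.1 hce).1
    exact even_iff_two_dvd.1 this
  refine of_coprime_b_even (c := -b) ha (neg_ne_zero.2 hc) (neg_ne_zero.2 hb) pp hp5 ?_ ?_
    ((dvd_neg).2 hc2)
  · rw [p_odd.neg_pow, p_odd.neg_pow, ← H]; ring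
  · rw [gcd_neg, ← FreyPackage.gcdab_eq_gcdac hp0 H]; exact hgcdab

theorem result (a b c : ℤ) (ha : a ≠ 0) (hb : b ≠ 0) (hc : c ≠ 0) (p : ℕ) (pp : p.Prime) (hp5 : 5 ≤ p) (H : a ^ p + b ^ p = c ^ p) : Nonempty FreyPackage := by
  have hp0 : p ≠ 0 := by omega
  -- divide out by the gcd
  obtain ⟨a', ha'⟩ : gcd a b ∣ a := gcd_dvd_left a b
  obtain ⟨b', hb'⟩ : gcd a b ∣ b := gcd_dvd_right a b
  have hd0 : gcd a b ≠ 0 := by
    intro h
    rw [gcd_eq_zero_iff] at h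
    exact ha h.1
  have hdc : gcd a b ∣ c := by
    rw [← Int.pow_dvd_pow_iff hp0, ← H]
    apply dvd_add <;> rw [Int.pow_dvd_pow_iff hp0]
    · exact gcd_dvd_left a b
    · exact gcd_dvd_right a b
  obtain ⟨c', hc'⟩ := hdc
  set d := gcd a b with hd
  have ha'0 : a' ≠ 0 := by rintro rfl; simp at ha'; exact ha ha'
  have hb'0 : b' ≠ 0 := by rintro rfl; simp at hb'; exact hb hb'
  have hc'0 : c' ≠ 0 := by rintro rfl; simp at hc'; exact hc hc'
  have H' : a' ^ p + b' ^ p = c' ^ p := by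
    have hdp : d ^ p ≠ 0 := pow_ne_zero p hd0
    apply mul_left_cancel₀ hdp
    rw [mul_add, ← mul_pow, ← mul_pow, ← mul_pow, ← ha', ← hb', ← hc']
    exact H
  have hg' : gcd a' b' = 1 := by
    have h1 : gcd (d * a') (d * b') = d := by rw [← ha', ← hb']
    rw [gcd_mul_left] at h1
    have h2 : normalize d = d := by rw [hd]; exact normalize_gcd a b
    rw [h2] at h1
    exact mul_left_cancel₀ hd0 (by rw [h1, mul_one])
  exact of_coprime ha'0 hb'0 hc'0 pp hp5 H' hg'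

end Fermat.Agent.S02
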