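import Fermat.Statements.S07
import Fermat.Prelude.Thm_ModularForm_sturm_bound_Gamma0
import Fermat.Prelude.Thm_CongruenceSubgroup_one_mem_strictPeriods_Gamma0

set_option autoImplicit false
open WeierstrassCurve WeierstrassCurve.Affine WeierstrassCurve.Affine.Point
open CuspForm ModularFormClass UpperHalfPlane
open ModularForm

namespace Fermat.Agent.S07

open scoped MatrixGroups

/-- The index of `Γ₀(2)` in `SL(2, ℤ)` is at most `4`. -/
theorem gamma0_two_index_le : (CongruenceSubgroup.Gamma0 2).index ≤ 4 := by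
  classical
  let φ : SL(2, ℤ) → ZMod 2 × ZMod 2 := fun g => ((g 0 0 : ZMod 2), (g 1 0 : ZMod 2))
  have hφ : ∀ g₁ g₂ : SL(2, ℤ), φ g₁ = φ g₂ → g₁⁻¹ * g₂ ∈ CongruenceSubgroup.Gamma0 2 := by
    intro g₁ g₂ h
    rw [CongruenceSubgroup.Gamma0_mem]
    have h1 : ((g₁ 0 0 : ℤ) : ZMod 2) = (g₂ 0 0 : ZMod 2) := congrArg Prod.fst h
    have h2 : ((g₁ 1 0 : ℤ) : ZMod 2) = (g₂ 1 0 : ZMod 2) := congrArg Prod.snd h
    have hinv := Matrix.SpecialLinearGroup.SL2_inv_expl g₁
    have hmul : (g₁⁻¹ * g₂) 1 0 = -(g₁ 1 0) * (g₂ 0 0) + (g₁ 0 0) * (g₂ 1 0) := by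
      rw [Matrix.SpecialLinearGroup.coe_mul, hinv, Matrix.mul_apply]
      simp [Fin.sum_univ_two]
    rw [hmul]
    push_cast
    rw [h1, h2]
    ring
  let ψ : SL(2, ℤ) ⧸ CongruenceSubgroup.Gamma0 2 → ZMod 2 × ZMod 2 := fun q => φ (Quotient.out q)
  have hψ : Function.Injective ψ := by
    intro q₁ q₂ h
    have := hφ _ _ h
    rw [← QuotientGroup.out_eq' q₁, ← QuotientGroup.out_eq' q₂]
    exact QuotientGroup.eq.mpr this
  have := Nat.card_le_card_of_injective ψ hψ
  simpa [Subgroup.index, Nat.card_prod] using this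

theorem result (f : CuspForm (CongruenceSubgroup.Gamma0 2) 2) : f = 0 := by
  have hper := CongruenceSubgroup.one_mem_strictPeriods_Gamma0 2
  have h0 : (qExpansion 1 f).coeff 0 = 0 :=
    CuspFormClass.qExpansion_coeff_zero f one_pos hper
  have key := ModularForm.sturm_bound_Gamma0 2 (k := 2)
    (ModularFormClass.modularForm f : ModularForm (CongruenceSubgroup.Gamma0 2) 2) ?_
  · ext z
    have := congrArg (fun g : ModularForm (CongruenceSubgroup.Gamma0 2) 2 => g z) key
    simpa using this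
  · intro n hn
    have hidx := gamma0_two_index_le
    have : n = 0 := by
      have : ((2 : ℤ) * ((CongruenceSubgroup.Gamma0 2).index : ℤ)).toNat / 12 = 0 := by
        have : ((2 : ℤ) * ((CongruenceSubgroup.Gamma0 2).index : ℤ)).toNat < 12 := by
          omega
        omega
      omega
    subst this
    exact h0

end Fermat.Agent.S07
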