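import Fermat.Statements.S10
import Fermat.Agent.FLTSmall.CaseI
import Fermat.Agent.FLTSmall.CaseII
import Fermat.Agent.FLTSmall.PID
import Fermat.Agent.FLTSmall.PID13
import Fermat.Agent.FLTSmall.Kummer5
import Fermat.Agent.FLTSmall.Kummer7
import Fermat.Agent.FLTSmall.Kummer13

set_option autoImplicit false
open WeierstrassCurve WeierstrassCurve.Affine WeierstrassCurve.Affine.Point
open CuspForm ModularFormClass UpperHalfPlane
open FreyPackage

namespace Fermat.Agent.S10

open NumberField Fermat.Agent.FLTSmall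

theorem false_of_p_eq_five (P : FreyPackage) (h : P.p = 5) : False := by
  have : Fact (Nat.Prime 5) := ⟨by norm_num⟩
  have : IsCyclotomicExtension {5} ℚ (CyclotomicField 5 ℚ) :=
    CyclotomicField.isCyclotomicExtension 5 ℚ
  have := IsCyclotomicExtension.Rat.five_pid (CyclotomicField 5 ℚ)
  exact freyPackage_false_of_caseI_of_kummer (p := 5) (K := CyclotomicField 5 ℚ) (by norm_num)
    (fun u hu => kummer_five (CyclotomicField 5 ℚ) u hu)
    (fun x y z hxy hyz hzx h => caseI_five hxy hyz hzx h) P h

theorem false_of_p_eq_seven (P : FreyPackage) (h : P.p = 7) : False := by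
  have : Fact (Nat.Prime 7) := ⟨by norm_num⟩
  have : IsCyclotomicExtension {7} ℚ (CyclotomicField 7 ℚ) :=
    CyclotomicField.isCyclotomicExtension 7 ℚ
  have := seven_pid (CyclotomicField 7 ℚ)
  exact freyPackage_false_of_caseI_of_kummer (p := 7) (K := CyclotomicField 7 ℚ) (by norm_num)
    (fun u hu => kummer_seven (CyclotomicField 7 ℚ) u hu)
    (fun x y z hxy hyz hzx h => caseI_seven hxy hyz hzx h) P h

theorem false_of_p_eq_thirteen (P : FreyPackage) (h : P.p = 13) : False := by
  have : Fact (Nat.Prime 13) := ⟨by norm_num⟩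
  have : IsCyclotomicExtension {13} ℚ (CyclotomicField 13 ℚ) :=
    CyclotomicField.isCyclotomicExtension 13 ℚ
  have := thirteen_pid (CyclotomicField 13 ℚ)
  exact freyPackage_false_of_caseI_of_kummer (p := 13) (K := CyclotomicField 13 ℚ) (by norm_num)
    (fun u hu => kummer_thirteen (CyclotomicField 13 ℚ) u hu)
    (fun x y z hxy hyz hzx h => caseI_thirteen hxy hyz hzx h) P h

theorem result (P : FreyPackage) (hp : P.p = 5 ∨ P.p = 7 ∨ P.p = 13) : ¬ HasGaloisStableCofixedLine (K := AlgebraicClosure ℚ) ℚ P.freyCurve P.p := by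
  intro _
  rcases hp with h | h | h
  · exact false_of_p_eq_five P h
  · exact false_of_p_eq_seven P h
  · exact false_of_p_eq_thirteen P h

end Fermat.Agent.S10
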