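import Fermat.Statements.S11
import Fermat.Agent.FLTSmall.CaseI
import Fermat.Agent.FLTSmall.CaseII
import Fermat.Agent.FLTSmall.PID
import Fermat.Agent.FLTSmall.Kummer11

set_option autoImplicit false
open WeierstrassCurve WeierstrassCurve.Affine WeierstrassCurve.Affine.Point
open CuspForm ModularFormClass UpperHalfPlane
open FreyPackage

namespace Fermat.Agent.S11

open NumberField Fermat.Agent.FLTSmall

theorem false_of_p_eq_eleven (P : FreyPackage) (h : P.p = 11) : False := by
  have : Fact (Nat.Prime 11) := ⟨by norm_num⟩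
  have : IsCyclotomicExtension {11} ℚ (CyclotomicField 11 ℚ) :=
    CyclotomicField.isCyclotomicExtension 11 ℚ
  have := eleven_pid (CyclotomicField 11 ℚ)
  exact freyPackage_false_of_caseI_of_kummer (p := 11) (K := CyclotomicField 11 ℚ) (by norm_num)
    (fun u hu => kummer_eleven (CyclotomicField 11 ℚ) u hu)
    (fun x y z hxy hyz hzx h => caseI_eleven hxy hyz hzx h) P h

theorem result (P : FreyPackage) (hp : P.p = 11) : ¬ HasGaloisStableCofixedLine (K := AlgebraicClosure ℚ) ℚ P.freyCurve P.p := by
  intro _
  exact false_of_p_eq_eleven P hp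

end Fermat.Agent.S11
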