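-- S13: if the mod-p representation of the Frey curve is reducible, it has a Galois-stable cofixed line.
-- Assembly of the `Cofix` packages: abstract glue (Glue/Assemble/Final), Minkowski (every prime
-- ramifies somewhere), existence of places over every prime, and existence of `p`-torsion (TorsAlg).
import Fermat.Statements.S13
import Fermat.Agent.Cofix.Final
import Fermat.Agent.Cofix.Minkowski
import Fermat.Agent.Cofix.TorsAlg

set_option autoImplicit false
open WeierstrassCurve WeierstrassCurve.Affine WeierstrassCurve.Affine.Point
open CuspForm ModularFormClass UpperHalfPlane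
open FreyPackage

namespace Fermat.Agent.S13

theorem result (P : FreyPackage) (hred : ¬ GaloisRepIsIrreducible (K := AlgebraicClosure ℚ) ℚ P.freyCurve P.p) : HasGaloisStableCofixedLine (K := AlgebraicClosure ℚ) ℚ P.freyCurve P.p := by
  haveI : @Algebra.IsAlgebraic ℚ (AlgebraicClosure ℚ) _ _ DivisionRing.toRatAlgebra := by
    have h : (DivisionRing.toRatAlgebra : Algebra ℚ (AlgebraicClosure ℚ)) =
        AlgebraicClosure.instAlgebra ℚ := Subsingleton.elim _ _
    rw [h]; exact AlgebraicClosure.isAlgebraic ℚ
  refine Fermat.Agent.Cofix.cofixed_of_torsion P ?_ ?_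
    (Fermat.Agent.Cofix.TorsAlg.frey_exists_torsion P) hred
  · intro H hH hopen hin
    exact Fermat.Agent.Cofix.Mink.eq_top_of_forall_inertia_le H hopen hin
  · intro ℓ hℓ
    exact Fermat.Agent.Lib.Frob.exists_liesOverPrime ℓ hℓ

end Fermat.Agent.S13
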