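import Fermat.Statements.S14
import Fermat.Agent.CFT.P0Fields
import Fermat.Agent.CFT.TopAssembly
import Fermat.Agent.CFT.P3bMain

set_option autoImplicit false
open ExtCitation

namespace Fermat.Agent.S14

open Fermat.Agent.CFT in
/-- the class-field-theory core: there is no unramified cyclic extension `L` of degree `p` of `K = ℚ(ζ_p)`, Galois over
`ℚ`, on whose Galois group `Gal(K/ℚ)` acts through the inverse of the cyclotomic character. -/
theorem core {p : ℕ} [Fact p.Prime] (h3 : 3 ≤ p) : CoreStatement p := by
  intro K L _ _ _ _ _ _ _ _ hdeg hunr hconj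
  have hp2 : p ≠ 2 := by omega
  haveI : IsAbelianGalois K L := isAbelianGalois_of_finrank_eq_prime hdeg
  have hconj' : ConjHyp K L p := hconj
  have hnonab : ¬ IsMulCommutative Gal(L/ℚ) := not_isMulCommutative_of_conjHyp hp2 hdeg hconj'
  exact core_of_recipHyp K L p hp2 hdeg hunr hconj'
    (artin_eq_of_mk0_eq p K L hp2 hdeg hunr hnonab)

theorem result {p : ℕ} [Fact p.Prime] (h3 : 3 ≤ p) :
    ExtCitation.ExtVanishingCts p :=
  Fermat.Agent.CFT.extVanishingCts_of_core (core h3)

end Fermat.Agent.S14
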