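import Fermat.Statements.S16
import Fermat.Agent.Eis.UpperTable
import Fermat.Agent.Eis.Tau
import Fermat.Agent.Eis.PEq
import Fermat.Agent.Eis.Rho
import Fermat.Agent.Eis.Three
import Fermat.Agent.Eis.Five

set_option autoImplicit false
open ModularCurve CuspForm
open ModularCurve

namespace Fermat.Agent.S16

/-- the five non-existence theorems of the upper bound. -/
theorem upperInputs (p : ℕ) [Fact p.Prime] : Fermat.Agent.Eis.UpperInputs p where
  tau ℓ _ hℓp s F hF := Fermat.Agent.Eis.tau_bound p ℓ hℓp s F hF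
  self hp5 F hF := Fermat.Agent.Eis.no_oneMod_self p hp5 F hF
  two hp5 hp F hF := Fermat.Agent.Eis.no_oneMod_two p hp5 hp F hF
  three hp5 hp F hF := Fermat.Agent.Eis.no_oneMod_three p hp5 hp F hF
  five hp5 ℓ _ hℓ hℓp F hF := Fermat.Agent.Eis.no_oneMod_five p hp5 ℓ hℓ hℓp F hF

theorem result
    (p : ℕ) [Fact p.Prime] :
    Nat.card (↥(heckeLatticeAlgebra p ∅) ⧸
        Ideal.map ((latticeRestrictHom p ∅).toRingHom.comp (heckeEvalForms p 2))
          (eisensteinIdeal p)) =
      eisensteinNumerator p :=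
  (upperInputs p).card_eq

end Fermat.Agent.S16
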