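-- Statement S21 (row 20): Eichler–Shimura for `Γ₀(N)` in weight two.
-- Proof: `periodHomPair N` is injective (`X0/ES/InjectiveMain`) and its range lies in the parabolic
-- homomorphisms (`X0/ES/Primitive`), whose dimension is at most `2 * genusFormula N`
-- (`X0/ES/ParabolicDim`); the dimension formula `S20` then forces equality of the range.
import Fermat.Statements.S21
import Fermat.Agent.S20
import Fermat.Agent.X0.ES.Main

set_option autoImplicit false
open ModularCurve

namespace Fermat.Agent.S21

theorem result (N : ℕ) [NeZero N] :
    Function.Injective (ModularCurve.periodHomPair N)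
      ∧ LinearMap.range (ModularCurve.periodHomPair N)
          = ModularCurve.Period.parabolicHoms ℂ (CongruenceSubgroup.Gamma0 N) ℂ :=
  Fermat.Agent.X0.eichlerShimura_of_le N (le_of_eq (Fermat.Agent.S20.result N).symm)

end Fermat.Agent.S21
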