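-- Statement S22: the Hecke algebra of cusp forms is a finitely generated ℤ-module.
-- Proof (team helper5/helper7/helper2/helper6/helper8): Eichler integrals and period polynomials.
-- The ℤ-lattice spanned by the coefficient functionals of the period polynomials is finitely
-- generated (cocycle relation + `Γ₀(N)` finitely generated), separates cusp forms (an invariant
-- Eichler integral is a modular form of negative weight, hence zero by the Sturm bound) and is
-- stable under the Hecke operators, so the Hecke algebra embeds into its ℤ-endomorphisms.
import Fermat.Statements.S22
import Fermat.Agent.S22.Assembly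
import Fermat.Agent.S22.Period
import Fermat.Agent.S22.Separation
import Fermat.Agent.S22.HeckeStable

set_option autoImplicit false
open CuspForm

namespace Fermat.Agent.S22

theorem result (N : ℕ) [NeZero N] (k : ℤ) (S : Set ℕ) :
    Module.Finite ℤ (CuspForm.heckeAlgebra N k S) := by
  refine finite_heckeAlgebra_of_main (fun N _ m S hm => ?_) N k S
  exact finite_heckeAlgebra_of_lattice N ((m : ℤ) + 1) S (periodLattice N m) periodLattice_fg
    (fun f h => periodLattice_separates N hm f h)
    (fun p hp hpN l hl => periodLattice_heckeT_stable hm hp hpN l hl)
    (fun p hpN hp l hl => periodLattice_heckeU_stable hm hp hpN l hl)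

end Fermat.Agent.S22
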