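-- Statement S24: the genus of the function field of X₀(N) over ℚ̄ is given by the classical
-- genus formula.  The proof is assembled in `Fermat/Agent/X0/Mod/Assembly.lean`.
import Fermat.Statements.S24
import Fermat.Agent.X0.Mod.Assembly

set_option autoImplicit false
open ModularCurve

namespace Fermat.Agent.S24

theorem result (N : ℕ) [NeZero N]
    [AlgebraicCurve.HasCanonicalDivisor (K := AlgebraicClosure ℚ) (F := ↥(ModularCurve.modularFunctionFieldBar N))] :
    (AlgebraicCurve.genus (AlgebraicClosure ℚ) ↥(ModularCurve.modularFunctionFieldBar N) : ℚ)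
      = ModularCurve.genusFormula N := by
  rcases Nat.lt_or_ge 1 N with hN | hN
  · exact Fermat.Agent.X0.genus_FN_eq_genusFormula N hN
  · have h1 : N = 1 := by
      have := NeZero.ne N
      omega
    subst h1
    exact Fermat.Agent.X0.FormalSide.genus_modularFunctionFieldBar_one

end Fermat.Agent.S24
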