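import Mathlib

set_option autoImplicit false

/-!
Simultaneous eigenvectors for a commutative ring acting on a finite-dimensional space over an
algebraically closed field, with control on the kernel of the eigencharacter.
-/

namespace Fermat.Agent.S49

open Module

/-- Key lemma: given a commutative ring `𝕋` acting on `V` via `ρ`, a prime ideal `𝔪`,
and a nonzero invariant subspace `W` such that every element killing `W` lies in `𝔪`,
there is a simultaneous eigenvector in `W` whose eigencharacter has kernel inside `𝔪`. -/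
theorem exists_eigenvector_ker_le_aux
    {K V 𝕋 : Type*} [Field K] [IsAlgClosed K] [AddCommGroup V] [Module K V]
    [FiniteDimensional K V] [CommRing 𝕋] (ρ : 𝕋 →+* Module.End K V) (𝔪 : Ideal 𝕋)
    [h𝔪 : 𝔪.IsPrime] :
    ∀ (n : ℕ) (W : Submodule K V), finrank K W = n → W ≠ ⊥ →
      (∀ T, ∀ w ∈ W, ρ T w ∈ W) → (∀ T, (∀ w ∈ W, ρ T w = 0) → T ∈ 𝔪) →
      ∃ (χ : 𝕋 →+* K) (g : V), g ∈ W ∧ g ≠ 0 ∧ (∀ T, ρ T g = χ T • g) ∧
        RingHom.ker χ ≤ 𝔪 := by
  intro n
  induction n using Nat.strong_induction_on with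
  | _ n ih =>
  intro W hn hW0 hinv hker
  have hcomm : ∀ T T' : 𝕋, ∀ v : V, ρ T (ρ T' v) = ρ T' (ρ T v) := by
    intro T T' v
    have h1 : ρ (T * T') v = ρ T (ρ T' v) := by rw [map_mul]; rfl
    have h2 : ρ (T' * T) v = ρ T' (ρ T v) := by rw [map_mul]; rfl
    rw [← h1, ← h2, mul_comm]
  by_cases hA : ∀ T, ∃ c : K, ∀ w ∈ W, ρ T w = c • w
  · -- all operators act as scalars on `W`
    choose c hc using hA
    obtain ⟨w₀, hw₀W, hw₀⟩ := (Submodule.ne_bot_iff W).mp hW0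
    have hinj : ∀ a b : K, a • w₀ = b • w₀ → a = b := fun a b hab =>
      smul_left_injective K hw₀ hab
    have hc1 : c 1 = 1 := by
      apply hinj
      rw [← hc 1 w₀ hw₀W, map_one, one_smul]; rfl
    have hcmul : ∀ T T', c (T * T') = c T * c T' := by
      intro T T'
      apply hinj
      rw [← hc (T * T') w₀ hw₀W, map_mul]
      change ρ T (ρ T' w₀) = _
      rw [hc T' w₀ hw₀W, map_smul, hc T w₀ hw₀W, smul_smul, mul_comm]
    have hcadd : ∀ T T', c (T + T') = c T + c T' := by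
      intro T T'
      apply hinj
      rw [← hc (T + T') w₀ hw₀W, map_add, LinearMap.add_apply, hc T w₀ hw₀W, hc T' w₀ hw₀W,
        add_smul]
    have hc0 : c 0 = 0 := by
      apply hinj
      rw [← hc 0 w₀ hw₀W, map_zero, zero_smul]; rfl
    refine ⟨{ toFun := c, map_one' := hc1, map_mul' := hcmul, map_zero' := hc0,
              map_add' := hcadd }, w₀, hw₀W, hw₀, fun T => hc T w₀ hw₀W, ?_⟩
    intro T hT
    have hT' : c T = 0 := hT
    apply hker
    intro w hw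
    rw [hc T w hw, hT', zero_smul]
  · -- some operator `T₀` is not a scalar on `W`
    push Not at hA
    obtain ⟨T₀, hT₀⟩ := hA
    have hWnt : Nontrivial W := Submodule.nontrivial_iff_ne_bot.mpr hW0
    let φ : Module.End K W := (ρ T₀).restrict (hinv T₀)
    obtain ⟨μ, hμ⟩ := Module.End.exists_eigenvalue φ
    obtain ⟨w₁', hw₁'⟩ := hμ.exists_hasEigenvector
    have hw₁ne : (w₁' : V) ≠ 0 := fun h => hw₁'.2 (Subtype.ext h)
    have hw₁eig : ρ T₀ (w₁' : V) = μ • (w₁' : V) := by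
      have := hw₁'.apply_eq_smul
      have h2 := congrArg (Subtype.val) this
      simpa [φ] using h2
    -- the nilpotent-ish part
    let Nn : Module.End K V := ρ T₀ - algebraMap K (Module.End K V) μ
    have hNn : ∀ v, Nn v = ρ T₀ v - μ • v := by
      intro v
      simp [Nn, Module.algebraMap_end_apply]
    have hNcomm : ∀ T v, ρ T (Nn v) = Nn (ρ T v) := by
      intro T v
      rw [hNn, hNn, map_sub, map_smul, hcomm]
    have hNW : ∀ w ∈ W, Nn w ∈ W := by
      intro w hw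
      rw [hNn]
      exact W.sub_mem (hinv T₀ w hw) (W.smul_mem μ hw)
    let W₁ : Submodule K V := W ⊓ LinearMap.ker Nn
    let W₂ : Submodule K V := W.map Nn
    have hW₁le : W₁ ≤ W := inf_le_left
    have hW₂le : W₂ ≤ W := by
      rintro _ ⟨w, hw, rfl⟩
      exact hNW w hw
    obtain ⟨w₂, hw₂W, hw₂⟩ := hT₀ μ
    have hNw₂ : Nn w₂ ≠ 0 := by
      rw [hNn]; exact sub_ne_zero.mpr hw₂
    have hW₁ne : W₁ ≠ ⊥ := by
      apply (Submodule.ne_bot_iff W₁).mpr
      refine ⟨(w₁' : V), Submodule.mem_inf.mpr ⟨w₁'.2, ?_⟩, hw₁ne⟩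
      rw [LinearMap.mem_ker, hNn, hw₁eig, sub_self]
    have hW₂ne : W₂ ≠ ⊥ := by
      apply (Submodule.ne_bot_iff W₂).mpr
      exact ⟨Nn w₂, ⟨w₂, hw₂W, rfl⟩, hNw₂⟩
    have hW₁lt : W₁ < W := by
      refine lt_of_le_of_ne hW₁le ?_
      intro h
      have : w₂ ∈ W₁ := by rw [h]; exact hw₂W
      exact hNw₂ (LinearMap.mem_ker.mp (Submodule.mem_inf.mp this).2)
    have hW₂lt : W₂ < W := by
      refine lt_of_le_of_ne hW₂le ?_
      intro h
      -- `Nn` restricted to `W` is surjective hence injective, contradiction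
      let ψ : Module.End K W := Nn.restrict hNW
      have hsurj : Function.Surjective ψ := by
        intro w
        have hw : (w : V) ∈ W₂ := by rw [h]; exact w.2
        obtain ⟨w', hw'W, hw'⟩ := hw
        exact ⟨⟨w', hw'W⟩, Subtype.ext hw'⟩
      have hinj : Function.Injective ψ := LinearMap.injective_iff_surjective.mpr hsurj
      have h0 : ψ w₁' = ψ 0 := by
        apply Subtype.ext
        simp only [ψ, LinearMap.coe_restrict_apply, map_zero, ZeroMemClass.coe_zero]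
        rw [hNn, hw₁eig, sub_self]
      exact hw₁'.2 (hinj h0)
    have hfr₁ : finrank K W₁ < n := hn ▸ Submodule.finrank_lt_finrank_of_lt hW₁lt
    have hfr₂ : finrank K W₂ < n := hn ▸ Submodule.finrank_lt_finrank_of_lt hW₂lt
    have hinv₁ : ∀ T, ∀ w ∈ W₁, ρ T w ∈ W₁ := by
      intro T w hw
      have hw' := Submodule.mem_inf.mp hw
      refine Submodule.mem_inf.mpr ⟨hinv T w hw'.1, ?_⟩
      rw [LinearMap.mem_ker, ← hNcomm, LinearMap.mem_ker.mp hw'.2, map_zero]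
    have hinv₂ : ∀ T, ∀ w ∈ W₂, ρ T w ∈ W₂ := by
      rintro T _ ⟨w, hw, rfl⟩
      exact ⟨ρ T w, hinv T w hw, (hNcomm T w).symm⟩
    have hdich : (∀ T, (∀ w ∈ W₁, ρ T w = 0) → T ∈ 𝔪) ∨ (∀ T, (∀ w ∈ W₂, ρ T w = 0) → T ∈ 𝔪) := by
      by_contra hcon
      push Not at hcon
      obtain ⟨⟨T₁, hT₁, hT₁𝔪⟩, ⟨T₂, hT₂, hT₂𝔪⟩⟩ := hcon
      have hprod : T₁ * T₂ ∈ 𝔪 := by
        apply hker
        intro w hw
        rw [map_mul]
        change ρ T₁ (ρ T₂ w) = 0
        apply hT₁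
        refine Submodule.mem_inf.mpr ⟨hinv T₂ w hw, ?_⟩
        rw [LinearMap.mem_ker, ← hNcomm]
        exact hT₂ _ ⟨w, hw, rfl⟩
      rcases h𝔪.mem_or_mem hprod with h | h
      · exact hT₁𝔪 h
      · exact hT₂𝔪 h
    rcases hdich with hk | hk
    · obtain ⟨χ, g, hg, hg0, hgeig, hχ⟩ := ih _ hfr₁ W₁ rfl hW₁ne hinv₁ hk
      exact ⟨χ, g, hW₁le hg, hg0, hgeig, hχ⟩
    · obtain ⟨χ, g, hg, hg0, hgeig, hχ⟩ := ih _ hfr₂ W₂ rfl hW₂ne hinv₂ hk
      exact ⟨χ, g, hW₂le hg, hg0, hgeig, hχ⟩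

/-- Simultaneous eigenvector with eigencharacter kernel contained in a given prime ideal. -/
theorem exists_eigenvector_ker_le
    {K V 𝕋 : Type*} [Field K] [IsAlgClosed K] [AddCommGroup V] [Module K V]
    [FiniteDimensional K V] [Nontrivial V] [CommRing 𝕋] (ρ : 𝕋 →+* Module.End K V)
    (𝔪 : Ideal 𝕋) [𝔪.IsPrime] (hker : RingHom.ker ρ ≤ 𝔪) :
    ∃ (χ : 𝕋 →+* K) (g : V), g ≠ 0 ∧ (∀ T, ρ T g = χ T • g) ∧ RingHom.ker χ ≤ 𝔪 := by
  obtain ⟨χ, g, -, hg0, hgeig, hχ⟩ :=
    exists_eigenvector_ker_le_aux ρ 𝔪 _ (⊤ : Submodule K V) rfl top_ne_bot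
      (fun _ _ _ => Submodule.mem_top)
      (fun T hT => hker (by
        rw [RingHom.mem_ker]
        ext v
        simpa using hT v Submodule.mem_top))
  exact ⟨χ, g, hg0, hgeig, hχ⟩

end Fermat.Agent.S49
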