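import Mathlib
import Fermat.Prelude.Def_FormalHecke_Eigensystem

set_option autoImplicit false

/-!
A formal Hecke eigensystem is recursive (multiplicative + prime-power recursion).
-/

namespace Fermat.Agent.S49

open FormalHecke

theorem isEigensystem_mul_of_coprime {R : Type*} [CommRing R] {e a : ℕ → R}
    (h : IsEigensystem e a) : ∀ m n : ℕ, m.Coprime n → a (m * n) = a m * a n := by
  obtain ⟨h1, hrec⟩ := h
  intro m
  induction m using Nat.strong_induction_on with
  | _ m ih =>
  intro n hmn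
  rcases Nat.lt_or_ge m 2 with hm | hm
  · interval_cases m
    · have hn : n = 1 := by simpa using hmn
      subst hn
      simp [h1]
    · simp [h1]
  · -- m ≥ 2
    have hm1 : m ≠ 1 := by omega
    set ℓ := m.minFac with hℓdef
    have hℓ : ℓ.Prime := Nat.minFac_prime hm1
    obtain ⟨m', hm'⟩ : ℓ ∣ m := Nat.minFac_dvd m
    have hℓ2 : 2 ≤ ℓ := hℓ.two_le
    have hm'pos : 0 < m' := by
      rcases Nat.eq_zero_or_pos m' with h0 | h0
      · subst h0; omega
      · exact h0
    have hm'lt : m' < m := by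
      rw [hm']; nlinarith
    have hcopℓ : ℓ.Coprime n := Nat.Coprime.coprime_dvd_left ⟨m', hm'⟩ hmn
    have hcopm' : m'.Coprime n := Nat.Coprime.coprime_dvd_left ⟨ℓ, by rw [hm', mul_comm]⟩ hmn
    have hℓn : ¬ ℓ ∣ n := fun hd => by
      have := Nat.Coprime.eq_one_of_dvd hcopℓ hd
      omega
    have e1 := hrec ℓ hℓ (m' * n)
    have e2 := hrec ℓ hℓ m'
    have ih1 := ih m' hm'lt n hcopm'
    have hmn' : m * n = ℓ * (m' * n) := by rw [hm', mul_assoc]
    by_cases hd : ℓ ∣ m'
    · obtain ⟨m'', hm''⟩ := hd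
      have hm''lt : m'' < m := by
        have : m'' ≤ m' := by rw [hm'']; exact Nat.le_mul_of_pos_left _ hℓ.pos
        omega
      have hcopm'' : m''.Coprime n :=
        Nat.Coprime.coprime_dvd_left ⟨ℓ, by rw [hm'', mul_comm]⟩ hcopm'
      have ih2 := ih m'' hm''lt n hcopm''
      have hd1 : ℓ ∣ m' * n := Dvd.dvd.mul_right ⟨m'', hm''⟩ n
      have hd2 : ℓ ∣ m' := ⟨m'', hm''⟩
      have hdiv1 : m' * n / ℓ = m'' * n := by
        rw [hm'', mul_assoc, Nat.mul_div_cancel_left _ hℓ.pos]
      have hdiv2 : m' / ℓ = m'' := by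
        rw [hm'', Nat.mul_div_cancel_left _ hℓ.pos]
      rw [if_pos hd1, hdiv1, ih2, ih1] at e1
      rw [if_pos hd2, hdiv2] at e2
      rw [hmn']
      have e2' : a m = a ℓ * a m' - e ℓ * a m'' := by
        rw [hm']; linear_combination e2
      rw [e2']
      linear_combination e1
    · have hd1 : ¬ ℓ ∣ m' * n := fun hdd => by
        rcases (Nat.Prime.dvd_mul hℓ).mp hdd with h' | h'
        · exact hd h'
        · exact hℓn h'
      rw [if_neg hd1, ih1] at e1
      rw [if_neg hd] at e2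
      rw [hmn']
      have e2' : a m = a ℓ * a m' := by
        rw [hm']; linear_combination e2
      rw [e2']
      linear_combination e1

theorem isRecursive_of_isEigensystem {R : Type*} [CommRing R] {e a : ℕ → R}
    (h : IsEigensystem e a) : IsRecursive e a := by
  refine ⟨h.1, isEigensystem_mul_of_coprime h, ?_⟩
  intro ℓ r hℓ
  have e1 := h.2 ℓ hℓ (ℓ ^ (r + 1))
  have hd : ℓ ∣ ℓ ^ (r + 1) := dvd_pow_self ℓ (Nat.succ_ne_zero r)
  have hdiv : ℓ ^ (r + 1) / ℓ = ℓ ^ r := by
    rw [pow_succ, Nat.mul_div_cancel _ hℓ.pos]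
  rw [if_pos hd, hdiv] at e1
  have hpow : ℓ ^ (r + 2) = ℓ * ℓ ^ (r + 1) := by ring
  rw [hpow]
  linear_combination e1

end Fermat.Agent.S49
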