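import Mathlib
import Fermat.Agent.S49_Basic
import Fermat.Agent.S49_Formal

set_option autoImplicit false

/-!
From a simultaneous Hecke eigenvector to a normalised eigenform.
-/

namespace Fermat.Agent.S49

open CongruenceSubgroup ModularFormClass UpperHalfPlane FormalHecke

variable {N : ℕ} [NeZero N]

/-- If the `q`-coefficients satisfy Hecke-type relations and `b 1 = 0`, all coefficients vanish. -/
theorem coeff_eq_zero_of_one_eq_zero {e lam b : ℕ → ℂ} (h0 : b 0 = 0) (h1 : b 1 = 0)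
    (hrel : ∀ ℓ : ℕ, ℓ.Prime → ∀ n : ℕ,
      b (ℓ * n) + e ℓ * (if ℓ ∣ n then b (n / ℓ) else 0) = lam ℓ * b n) :
    ∀ n, b n = 0 := by
  intro n
  induction n using Nat.strong_induction_on with
  | _ n ih =>
  rcases Nat.lt_or_ge n 2 with hn | hn
  · interval_cases n
    · exact h0
    · exact h1
  · have hn1 : n ≠ 1 := by omega
    have hℓ : (n.minFac).Prime := Nat.minFac_prime hn1
    obtain ⟨m, hm⟩ : n.minFac ∣ n := Nat.minFac_dvd n
    have hℓ2 := hℓ.two_le
    have hmpos : 0 < m := by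
      rcases Nat.eq_zero_or_pos m with h | h
      · subst h; omega
      · exact h
    have hmlt : m < n := by
      calc m < n.minFac * m := by nlinarith
        _ = n := hm.symm
    have hdivlt : m / n.minFac < n := lt_of_le_of_lt (Nat.div_le_self _ _) hmlt
    have e1 := hrel n.minFac hℓ m
    rw [ih m hmlt, ih (m / n.minFac) hdivlt] at e1
    have : b n = b (n.minFac * m) := by rw [← hm]
    rw [this]
    simpa using e1

theorem exists_normalized_eigenform_of_eigenvector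
    (χ : CuspForm.heckeAlgebra N 2 (∅ : Set ℕ) →+* ℂ) (g : CuspForm (Gamma0 N) 2) (hg0 : g ≠ 0)
    (hgeig : ∀ T : CuspForm.heckeAlgebra N 2 (∅ : Set ℕ), T.1 g = χ T • g) :
    ∃ f' : CuspForm (Gamma0 N) 2, f'.IsNormalizedEigenform ∧
      ∀ (ℓ : ℕ) (hℓ : ℓ.Prime) (hℓN : ¬ ℓ ∣ N),
        qCoeff ⇑f' ℓ = χ (CuspForm.heckeAlgebra.T hℓ hℓN (Set.notMem_empty ℓ)) := by
  classical
  set b : ℕ → ℂ := fun n => qCoeff ⇑g n with hb
  let e : ℕ → ℂ := fun ℓ => if ℓ ∣ N then 0 else (ℓ : ℂ)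
  let lam : ℕ → ℂ := fun ℓ =>
    if hℓ : ℓ.Prime then
      (if hN : ℓ ∣ N then χ (CuspForm.heckeAlgebra.U hℓ hN (Set.notMem_empty ℓ))
        else χ (CuspForm.heckeAlgebra.T hℓ hN (Set.notMem_empty ℓ)))
    else 0
  have hrel : ∀ ℓ : ℕ, ℓ.Prime → ∀ n : ℕ,
      b (ℓ * n) + e ℓ * (if ℓ ∣ n then b (n / ℓ) else 0) = lam ℓ * b n := by
    intro ℓ hℓ n
    by_cases hN : ℓ ∣ N
    · have h1 := hgeig (CuspForm.heckeAlgebra.U hℓ hN (Set.notMem_empty ℓ))
      have h2 := congrArg (fun F : CuspForm (Gamma0 N) 2 => qCoeff ⇑F n) h1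
      simp only [CuspForm.heckeAlgebra.coe_U] at h2
      rw [qCoeff_heckeULin hN hℓ.ne_zero, qCoeff_smul] at h2
      simp only [e, lam, dif_pos hℓ, dif_pos hN, if_pos hN, zero_mul, add_zero, hb, mul_comm ℓ n]
      exact h2
    · have h1 := hgeig (CuspForm.heckeAlgebra.T hℓ hN (Set.notMem_empty ℓ))
      have h2 := congrArg (fun F : CuspForm (Gamma0 N) 2 => qCoeff ⇑F n) h1
      simp only [CuspForm.heckeAlgebra.coe_T] at h2
      rw [qCoeff_heckeTLin, qCoeff_smul] at h2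
      have hpow : ((ℓ : ℂ)) ^ ((2 : ℤ) - 1) = (ℓ : ℂ) := by norm_num
      rw [hpow] at h2
      simp only [e, lam, dif_pos hℓ, dif_neg hN, if_neg hN, hb, mul_comm ℓ n]
      rw [← h2]
      split_ifs <;> simp
  have hb1 : b 1 ≠ 0 := by
    intro h1
    apply hg0
    apply eq_zero_of_qCoeff_eq_zero
    exact coeff_eq_zero_of_one_eq_zero (qCoeff_zero_index g) h1 hrel
  refine ⟨(b 1)⁻¹ • g, ?_, ?_⟩
  · -- eigenform
    set b' : ℕ → ℂ := fun n => qCoeff ⇑((b 1)⁻¹ • g) n with hb'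
    have hb'b : ∀ n, b' n = (b 1)⁻¹ * b n := fun n => qCoeff_smul _ g n
    have hlam : ∀ ℓ : ℕ, ℓ.Prime → lam ℓ = b' ℓ := by
      intro ℓ hℓ
      have h1 := hrel ℓ hℓ 1
      have hnd : ¬ ℓ ∣ 1 := fun hd => hℓ.one_lt.ne' (Nat.dvd_one.mp hd)
      rw [if_neg hnd, mul_zero, add_zero, mul_one] at h1
      rw [hb'b, h1]
      field_simp
    have heig : IsEigensystem e b' := by
      refine ⟨?_, ?_⟩
      · rw [hb'b]; exact inv_mul_cancel₀ hb1
      · intro ℓ hℓ n
        rw [← hlam ℓ hℓ, hb'b, hb'b n]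
        have h1 := hrel ℓ hℓ n
        split_ifs at h1 ⊢ with hd
        · rw [hb'b]
          linear_combination (b 1)⁻¹ * h1
        · linear_combination (b 1)⁻¹ * h1
    obtain ⟨h1, hmul, hpow⟩ := isRecursive_of_isEigensystem heig
    refine ⟨h1, hmul, ?_, ?_⟩
    · intro p r hp hpN
      have := hpow p r hp
      simp only [e, if_neg hpN] at this
      exact this
    · intro p r hp hpN
      have := hpow p r hp
      simp only [e, if_pos hpN, zero_mul, sub_zero] at this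
      exact this
  · intro ℓ hℓ hℓN
    have h1 := hrel ℓ hℓ 1
    have hnd : ¬ ℓ ∣ 1 := fun hd => hℓ.one_lt.ne' (Nat.dvd_one.mp hd)
    rw [if_neg hnd, mul_zero, add_zero, mul_one] at h1
    simp only [lam, dif_pos hℓ, dif_neg hℓN] at h1
    rw [qCoeff_smul]
    change (b 1)⁻¹ * b ℓ = _
    rw [h1]
    field_simp

end Fermat.Agent.S49
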