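import Mathlib
import Fermat.Agent.S49_Lattice

set_option autoImplicit false

/-!
Elements of the Hecke algebra are integral over `ℤ`.
-/

namespace Fermat.Agent.S49

open CongruenceSubgroup ModularFormClass UpperHalfPlane

variable {N : ℕ} [NeZero N]

theorem hecke_mem_intLattice (T : CuspForm.heckeAlgebra N 2 (∅ : Set ℕ))
    (f : CuspForm (Gamma0 N) 2) (hf : f ∈ CuspForm.intLattice N 2) :
    T.1 f ∈ CuspForm.intLattice N 2 :=
  CuspForm.mem_intLattice_of_mem_heckeAlgebra (by norm_num) T.2 hf

/-- Restriction of the Hecke action to the integral lattice. -/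
noncomputable def latticeRestrict (N : ℕ) [NeZero N] :
    CuspForm.heckeAlgebra N 2 (∅ : Set ℕ) →ₐ[ℤ] Module.End ℤ (CuspForm.intLattice N 2) where
  toFun T := (T.1.restrictScalars ℤ).restrict (hecke_mem_intLattice T)
  map_one' := by ext x; rfl
  map_mul' S T := by ext x; rfl
  map_zero' := by ext x; rfl
  map_add' S T := by ext x; rfl
  commutes' r := by
    refine LinearMap.ext fun x => Subtype.ext ?_
    change (algebraMap ℤ (CuspForm.heckeAlgebra N 2 (∅ : Set ℕ)) r).1 (x : CuspForm (Gamma0 N) 2) = _
    rw [algebraMap_apply_form]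
    simp only [eq_intCast, Module.End.intCast_apply, Submodule.coe_smul]
    exact Int.cast_smul_eq_zsmul ℂ r _

theorem latticeRestrict_apply (T : CuspForm.heckeAlgebra N 2 (∅ : Set ℕ))
    (x : CuspForm.intLattice N 2) : ((latticeRestrict N T x : CuspForm.intLattice N 2) :
      CuspForm (Gamma0 N) 2) = T.1 x := rfl

theorem latticeRestrict_injective (h : CuspForm.HasIntegralBasis N) :
    Function.Injective (latticeRestrict N) := by
  rw [injective_iff_map_eq_zero]
  intro T hT
  apply Subtype.ext
  have hzero : ∀ x ∈ (CuspForm.intLattice N 2 : Set (CuspForm (Gamma0 N) 2)), T.1 x = 0 := by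
    intro x hx
    have := congrArg (fun φ : Module.End ℤ (CuspForm.intLattice N 2) =>
      ((φ ⟨x, hx⟩ : CuspForm.intLattice N 2) : CuspForm (Gamma0 N) 2)) hT
    simpa [latticeRestrict_apply] using this
  have hker : Submodule.span ℂ (CuspForm.intLattice N 2 : Set (CuspForm (Gamma0 N) 2)) ≤
      LinearMap.ker T.1 := Submodule.span_le.mpr fun x hx => LinearMap.mem_ker.mpr (hzero x hx)
  rw [span_intLattice_eq_top h] at hker
  refine LinearMap.ext fun x => ?_
  exact LinearMap.mem_ker.mp (hker Submodule.mem_top)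

theorem isIntegral_hecke (h : CuspForm.HasIntegralBasis N)
    (T : CuspForm.heckeAlgebra N 2 (∅ : Set ℕ)) : IsIntegral ℤ T := by
  have : Module.Finite ℤ (CuspForm.intLattice N 2) :=
    Module.Finite.iff_fg.mpr (CuspForm.intLattice_fg N 2)
  have := Algebra.IsIntegral.isIntegral (R := ℤ) (latticeRestrict N T)
  exact (isIntegral_algHom_iff _ (latticeRestrict_injective h)).mp this

end Fermat.Agent.S49
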