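import Mathlib
import Fermat.Agent.S49_Lattice

set_option autoImplicit false

/-!
The mod-3 eigenvector: maximality of the `modThreeIdeal` and congruences for generators.
-/

namespace Fermat.Agent.S49

open CongruenceSubgroup ModularFormClass UpperHalfPlane EisensteinWeightOne

theorem map_e1Chi3In_zmod3 :
    PowerSeries.map (Int.castRingHom (ZMod 3)) (e1Chi3In ℤ) = 1 := by
  ext n
  simp only [e1Chi3In, e1Chi3, PowerSeries.coeff_map, PowerSeries.coeff_mk, PowerSeries.coeff_one]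
  split_ifs with h
  · simp
  · simp only [eq_intCast, Int.cast_id, Int.cast_mul]
    have : ((6 : ℤ) : ZMod 3) = 0 := by decide
    rw [this, zero_mul]

theorem bridgeProduct_coeff_zmod3 (a : ℕ → ℤ) (n : ℕ) :
    (((bridgeProduct a).coeff n : ℤ) : ZMod 3) = ((a n : ℤ) : ZMod 3) := by
  have h := congrArg (fun p => PowerSeries.coeff n p)
    (show PowerSeries.map (Int.castRingHom (ZMod 3)) (bridgeProduct a) =
      PowerSeries.map (Int.castRingHom (ZMod 3)) (PowerSeries.mk a) by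
        rw [bridgeProduct, map_mul, map_e1Chi3In_zmod3, mul_one])
  simpa using h

theorem chiNegThree_zmod3 (ℓ : ℕ) : ((chiNegThree ℓ : ℤ) : ZMod 3) = (ℓ : ZMod 3) := by
  have h : (ℓ : ZMod 3) = ((ℓ % 3 : ℕ) : ZMod 3) := by
    rw [ZMod.natCast_mod]
  rw [h]
  unfold chiNegThree
  have h3 : ℓ % 3 < 3 := Nat.mod_lt _ (by norm_num)
  interval_cases (ℓ % 3) <;> simp <;> decide

theorem three_dvd_iff (z : ℤ) : (3 : ℤ) ∣ z ↔ ((z : ZMod 3) = 0) := by
  rw [ZMod.intCast_zmod_eq_zero_iff_dvd]; norm_num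

variable {N : ℕ} [NeZero N]

/-- The eigen-hypotheses packaged: `f` has integer coefficients `af`, congruent mod 3 to an
eigensystem `a` with character `χ₋₃` away from `N`. -/
structure ModThreeEigen (N : ℕ) (f : CuspForm (Gamma0 N) 2) (af a : ℕ → ℤ) : Prop where
  coeff : ∀ n, (af n : ℂ) = qCoeff ⇑f n
  congr : ∀ n, ((af n : ℤ) : ZMod 3) = ((a n : ℤ) : ZMod 3)
  eig : FormalHecke.IsEigensystem
      (fun ℓ => if ℓ ∣ N then 0 else ((chiNegThree ℓ : ℤ) : ℤ)) a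

omit [NeZero N] in
theorem ModThreeEigen.isInt {f : CuspForm (Gamma0 N) 2} {af a : ℕ → ℤ}
    (H : ModThreeEigen N f af a) : IsInt f := fun n => ⟨af n, (H.coeff n).symm⟩

omit [NeZero N] in
theorem ModThreeEigen.not_dvd_one {f : CuspForm (Gamma0 N) 2} {af a : ℕ → ℤ}
    (H : ModThreeEigen N f af a) : ¬ (3 : ℤ) ∣ af 1 := by
  intro h
  have h0 : ((af 1 : ℤ) : ZMod 3) = 0 := (three_dvd_iff _).mp h
  rw [H.congr 1, H.eig.1] at h0
  revert h0
  decide

theorem heckeT_sub_mem {f : CuspForm (Gamma0 N) 2} {af a : ℕ → ℤ}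
    (H : ModThreeEigen N f af a) {ℓ : ℕ} (hℓ : ℓ.Prime) (hℓN : ¬ ℓ ∣ N) :
    (CuspForm.heckeAlgebra.T hℓ hℓN (Set.notMem_empty ℓ) : CuspForm.heckeAlgebra N 2 (∅ : Set ℕ))
      - algebraMap ℤ _ (a ℓ) ∈ modThreeIdeal f := by
  intro n
  have hval : ((CuspForm.heckeAlgebra.T hℓ hℓN (Set.notMem_empty ℓ) :
      CuspForm.heckeAlgebra N 2 (∅ : Set ℕ)) - algebraMap ℤ _ (a ℓ)).1 f =
      CuspForm.heckeTLin 2 hℓ hℓN f - (a ℓ : ℂ) • f := by
    rw [← algebraMap_apply_form]; rfl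
  rw [hval, qCoeff_sub, qCoeff_smul, qCoeff_heckeTLin]
  have hpow : ((ℓ : ℂ)) ^ ((2 : ℤ) - 1) = (ℓ : ℂ) := by norm_num
  rw [hpow, ← H.coeff, ← H.coeff, ← H.coeff]
  have hrel := H.eig.2 ℓ hℓ n
  simp only [if_neg hℓN] at hrel
  -- the integer whose cast is the coefficient
  have key : (3 : ℤ) ∣ af (n * ℓ) + (if ℓ ∣ n then (ℓ : ℤ) * af (n / ℓ) else 0) - a ℓ * af n := by
    rw [three_dvd_iff]
    have hrel' := congrArg (Int.cast (R := ZMod 3)) hrel
    push_cast at hrel' ⊢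
    rw [H.congr (n * ℓ), H.congr n, mul_comm n ℓ]
    split_ifs at hrel' ⊢ with hd
    · rw [H.congr (n / ℓ), ← chiNegThree_zmod3 ℓ]
      linear_combination hrel'
    · linear_combination hrel'
  obtain ⟨m, hm⟩ := key
  refine ⟨m, ?_⟩
  have hm' := congrArg (Int.cast (R := ℂ)) hm
  push_cast at hm'
  rw [← hm']

theorem heckeU_sub_mem {f : CuspForm (Gamma0 N) 2} {af a : ℕ → ℤ}
    (H : ModThreeEigen N f af a) {q : ℕ} (hq : q.Prime) (hqN : q ∣ N) :
    (CuspForm.heckeAlgebra.U hq hqN (Set.notMem_empty q) : CuspForm.heckeAlgebra N 2 (∅ : Set ℕ))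
      - algebraMap ℤ _ (a q) ∈ modThreeIdeal f := by
  intro n
  have hval : ((CuspForm.heckeAlgebra.U hq hqN (Set.notMem_empty q) :
      CuspForm.heckeAlgebra N 2 (∅ : Set ℕ)) - algebraMap ℤ _ (a q)).1 f =
      CuspForm.heckeULin 2 hqN f - (a q : ℂ) • f := by
    rw [← algebraMap_apply_form]; rfl
  rw [hval, qCoeff_sub, qCoeff_smul, qCoeff_heckeULin hqN hq.ne_zero]
  rw [← H.coeff, ← H.coeff]
  have hrel := H.eig.2 q hq n
  simp only [if_pos hqN, zero_mul, add_zero] at hrel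
  have key : (3 : ℤ) ∣ af (n * q) - a q * af n := by
    rw [three_dvd_iff]
    have hrel' := congrArg (Int.cast (R := ZMod 3)) hrel
    push_cast at hrel' ⊢
    rw [H.congr (n * q), H.congr n, mul_comm n q]
    linear_combination hrel'
  obtain ⟨m, hm⟩ := key
  refine ⟨m, ?_⟩
  have hm' := congrArg (Int.cast (R := ℂ)) hm
  push_cast at hm'
  rw [← hm']

/-- Every Hecke operator is congruent to an integer modulo the `modThreeIdeal`. -/
theorem exists_int_sub_mem {f : CuspForm (Gamma0 N) 2} {af a : ℕ → ℤ}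
    (H : ModThreeEigen N f af a) (T : CuspForm.heckeAlgebra N 2 (∅ : Set ℕ)) :
    ∃ c : ℤ, T - algebraMap ℤ _ c ∈ modThreeIdeal f := by
  obtain ⟨T, hT⟩ := T
  induction hT using Algebra.adjoin_induction with
  | mem x hx =>
    rcases hx with ⟨ℓ, hℓ, hℓN, -, rfl⟩ | ⟨q, hqN, hq, -, rfl⟩
    · exact ⟨a ℓ, heckeT_sub_mem H hℓ hℓN⟩
    · exact ⟨a q, heckeU_sub_mem H hq hqN⟩
  | algebraMap r =>
    refine ⟨r, ?_⟩
    have : (⟨algebraMap ℤ _ r, Subalgebra.algebraMap_mem _ r⟩ :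
        CuspForm.heckeAlgebra N 2 (∅ : Set ℕ)) = algebraMap ℤ _ r := rfl
    rw [this, sub_self]
    exact Ideal.zero_mem _
  | add x y hx hy ihx ihy =>
    obtain ⟨c, hc⟩ := ihx
    obtain ⟨d, hd⟩ := ihy
    refine ⟨c + d, ?_⟩
    have : (⟨x + y, Subalgebra.add_mem _ hx hy⟩ : CuspForm.heckeAlgebra N 2 (∅ : Set ℕ)) -
        algebraMap ℤ _ (c + d) =
        ((⟨x, hx⟩ : CuspForm.heckeAlgebra N 2 (∅ : Set ℕ)) - algebraMap ℤ _ c) +
        ((⟨y, hy⟩ : CuspForm.heckeAlgebra N 2 (∅ : Set ℕ)) - algebraMap ℤ _ d) := by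
      rw [map_add]
      have : (⟨x + y, Subalgebra.add_mem _ hx hy⟩ : CuspForm.heckeAlgebra N 2 (∅ : Set ℕ)) =
        ⟨x, hx⟩ + ⟨y, hy⟩ := rfl
      rw [this]; ring
    rw [this]
    exact Ideal.add_mem _ hc hd
  | mul x y hx hy ihx ihy =>
    obtain ⟨c, hc⟩ := ihx
    obtain ⟨d, hd⟩ := ihy
    refine ⟨c * d, ?_⟩
    have : (⟨x * y, Subalgebra.mul_mem _ hx hy⟩ : CuspForm.heckeAlgebra N 2 (∅ : Set ℕ)) -
        algebraMap ℤ _ (c * d) =
        (⟨x, hx⟩ : CuspForm.heckeAlgebra N 2 (∅ : Set ℕ)) *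
          ((⟨y, hy⟩ : CuspForm.heckeAlgebra N 2 (∅ : Set ℕ)) - algebraMap ℤ _ d) +
        algebraMap ℤ _ d * ((⟨x, hx⟩ : CuspForm.heckeAlgebra N 2 (∅ : Set ℕ)) -
          algebraMap ℤ _ c) := by
      rw [map_mul]
      have : (⟨x * y, Subalgebra.mul_mem _ hx hy⟩ : CuspForm.heckeAlgebra N 2 (∅ : Set ℕ)) =
        ⟨x, hx⟩ * ⟨y, hy⟩ := rfl
      rw [this]; ring
    rw [this]
    exact Ideal.add_mem _ (Ideal.mul_mem_left _ _ hd) (Ideal.mul_mem_left _ _ hc)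

theorem modThreeIdeal_isMaximal {f : CuspForm (Gamma0 N) 2} {af a : ℕ → ℤ}
    (H : ModThreeEigen N f af a) : (modThreeIdeal f).IsMaximal := by
  rw [Ideal.isMaximal_iff]
  constructor
  · intro h1
    have : algebraMap ℤ (CuspForm.heckeAlgebra N 2 (∅ : Set ℕ)) 1 ∈ modThreeIdeal f := by
      rw [map_one]; exact h1
    have := dvd_of_algebraMap_mem_modThreeIdeal H.coeff H.not_dvd_one this
    omega
  · intro J x hIJ hxI hxJ
    obtain ⟨c, hc⟩ := exists_int_sub_mem H x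
    have hc3 : ¬ (3 : ℤ) ∣ c := by
      intro h3
      apply hxI
      have := Ideal.add_mem _ hc (algebraMap_mem_modThreeIdeal H.isInt h3)
      simpa using this
    -- c * c ≡ 1 mod 3
    have hcc : (3 : ℤ) ∣ c * c - 1 := by
      have h1 : c % 3 = 1 ∨ c % 3 = 2 := by omega
      rcases h1 with h1 | h1
      · have : c = 3 * (c / 3) + 1 := by omega
        rw [this]; exact ⟨3 * (c / 3) * (c / 3) + 2 * (c / 3), by ring⟩
      · have : c = 3 * (c / 3) + 2 := by omega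
        rw [this]; exact ⟨3 * (c / 3) * (c / 3) + 4 * (c / 3) + 1, by ring⟩
    have h3J : algebraMap ℤ (CuspForm.heckeAlgebra N 2 (∅ : Set ℕ)) (c * c - 1) ∈ J :=
      hIJ (algebraMap_mem_modThreeIdeal H.isInt hcc)
    have hcJ : x - algebraMap ℤ _ c ∈ J := hIJ hc
    have : (1 : CuspForm.heckeAlgebra N 2 (∅ : Set ℕ)) =
        algebraMap ℤ _ c * x - algebraMap ℤ _ c * (x - algebraMap ℤ _ c)
          - algebraMap ℤ _ (c * c - 1) := by
      rw [map_sub, map_mul, map_one]; ring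
    rw [this]
    exact Ideal.sub_mem _ (Ideal.sub_mem _ (Ideal.mul_mem_left _ _ hxJ)
      (Ideal.mul_mem_left _ _ hcJ)) h3J

end Fermat.Agent.S49
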