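-- Statement S49: lifting lemma (Deligne–Serre) for lattice-realised eigensystems.
import Fermat.Statements.S49
import Fermat.Agent.S49_Eigen
import Fermat.Agent.S49_Formal
import Fermat.Agent.S49_Mod3
import Fermat.Agent.S49_Integral
import Fermat.Agent.S49_Eigenform

set_option autoImplicit false
open CuspForm EisensteinWeightOne CongruenceSubgroup ModularFormClass
open FLT FLT.AbstractIntegralStructure

namespace Fermat.Agent.S49

theorem result
    {N : ℕ} [NeZero N] (h : CuspForm.HasIntegralBasis N) {a : ℕ → ℤ}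
    (heig : FormalHecke.IsEigensystem
      (fun ℓ => if ℓ ∣ N then 0 else ((chiNegThree ℓ : ℤ) : ℤ)) a)
    (hreal : CuspForm.IsLatticeRealized N a) :
    ∃ (f : CuspForm (Gamma0 N) 2) (_ : f.IsNormalizedEigenform)
      (𝔪' : Ideal (integralClosure ℤ ℂ)), 𝔪'.IsMaximal ∧
      ((3 : ℕ) : integralClosure ℤ ℂ) ∈ 𝔪' ∧
      ∀ (ℓ : ℕ) (_ : ℓ.Prime) (_ : ¬ ℓ ∣ N),
        ∃ c : integralClosure ℤ ℂ, (c : ℂ) = ModularFormClass.qCoeff f ℓ ∧
          c - (a ℓ : integralClosure ℤ ℂ) ∈ 𝔪' := by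
  classical
  obtain ⟨f, -, af, haf, hdiv⟩ := hreal
  have H : ModThreeEigen N f af a := by
    refine ⟨haf, fun n => ?_, heig⟩
    have h1 := (three_dvd_iff _).mp (hdiv n)
    rw [Int.cast_sub, bridgeProduct_coeff_zmod3, sub_eq_zero] at h1
    exact h1
  haveI : FiniteDimensional ℂ (CuspForm (Gamma0 N) 2) := finiteDimensional_of_hasIntegralBasis h
  have hf0 : f ≠ 0 := by
    intro hf
    apply H.not_dvd_one
    have : (af 1 : ℂ) = 0 := by rw [haf 1, hf, qCoeff_zero]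
    have : af 1 = 0 := by exact_mod_cast this
    rw [this]; exact dvd_zero _
  haveI : Nontrivial (CuspForm (Gamma0 N) 2) := ⟨⟨f, 0, hf0⟩⟩
  -- the Hecke algebra and its action
  let ρ : CuspForm.heckeAlgebra N 2 (∅ : Set ℕ) →+* Module.End ℂ (CuspForm (Gamma0 N) 2) :=
    (CuspForm.heckeAlgebra N 2 (∅ : Set ℕ)).val.toRingHom
  have hρ : ∀ T : CuspForm.heckeAlgebra N 2 (∅ : Set ℕ), ρ T = T.1 := fun _ => rfl
  haveI hmax : (modThreeIdeal f).IsMaximal := modThreeIdeal_isMaximal H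
  haveI : (modThreeIdeal f).IsPrime := hmax.isPrime
  have hkerρ : RingHom.ker ρ ≤ modThreeIdeal f := by
    intro T hT
    have : T = 0 := Subtype.ext (by simpa [hρ] using hT)
    rw [this]; exact Ideal.zero_mem _
  obtain ⟨χ, g, hg0, hgeig, hχ⟩ := exists_eigenvector_ker_le ρ (modThreeIdeal f) hkerρ
  -- the eigenform
  obtain ⟨f', hf', hcoef⟩ := exists_normalized_eigenform_of_eigenvector χ g hg0 hgeig
  -- integrality of eigenvalues
  have hint : ∀ T, χ T ∈ integralClosure ℤ ℂ := fun T =>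
    (isIntegral_hecke h T).map χ.toIntAlgHom
  let χ' : CuspForm.heckeAlgebra N 2 (∅ : Set ℕ) →+* integralClosure ℤ ℂ :=
    χ.codRestrict (integralClosure ℤ ℂ) hint
  have hχ' : ∀ T, ((χ' T : integralClosure ℤ ℂ) : ℂ) = χ T := fun _ => rfl
  letI : Algebra (CuspForm.heckeAlgebra N 2 (∅ : Set ℕ)) (integralClosure ℤ ℂ) := χ'.toAlgebra
  have halg : algebraMap (CuspForm.heckeAlgebra N 2 (∅ : Set ℕ)) (integralClosure ℤ ℂ) = χ' :=
    RingHom.algebraMap_toAlgebra χ'
  haveI : Algebra.IsIntegral (CuspForm.heckeAlgebra N 2 (∅ : Set ℕ)) (integralClosure ℤ ℂ) := by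
    refine ⟨fun z => ?_⟩
    have hz : IsIntegral ℤ z := Algebra.IsIntegral.isIntegral z
    exact hz.tower_top
  have hker' : RingHom.ker (algebraMap (CuspForm.heckeAlgebra N 2 (∅ : Set ℕ))
      (integralClosure ℤ ℂ)) ≤ modThreeIdeal f := by
    rw [halg]
    intro T hT
    apply hχ
    rw [RingHom.mem_ker] at hT ⊢
    rw [← hχ', hT]; rfl
  obtain ⟨Q, hQmax, hQ⟩ :=
    Ideal.exists_ideal_over_maximal_of_isIntegral (S := integralClosure ℤ ℂ) (modThreeIdeal f) hker'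
  rw [halg] at hQ
  have hmemQ : ∀ T, T ∈ modThreeIdeal f → χ' T ∈ Q := by
    intro T hT
    rw [← hQ] at hT
    exact hT
  refine ⟨f', hf', Q, hQmax, ?_, ?_⟩
  · have h3 := hmemQ _ (algebraMap_mem_modThreeIdeal H.isInt (c := 3) (dvd_refl _))
    have : χ' (algebraMap ℤ _ 3) = ((3 : ℕ) : integralClosure ℤ ℂ) := by
      rw [eq_intCast, map_intCast]; norm_num
    rwa [this] at h3
  · intro ℓ hℓ hℓN
    refine ⟨χ' (CuspForm.heckeAlgebra.T hℓ hℓN (Set.notMem_empty ℓ)), ?_, ?_⟩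
    · rw [hχ', hcoef ℓ hℓ hℓN]
    · have hmem := hmemQ _ (heckeT_sub_mem H hℓ hℓN)
      rw [map_sub, eq_intCast, map_intCast] at hmem
      exact hmem

end Fermat.Agent.S49
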