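-- Statement S51: a semistable elliptic curve over ℚ has irreducible mod-3 or mod-5 representation.
-- Proof (blueprint: lead; team helper1-helper8): if both `E[3]` and `E[5]` are reducible there are
-- Galois-stable lines `{O, ±R}` and `{O, ±P, ±2P}`; the abscissae `x(R)`, `x(P) + x(2P)`,
-- `x(P) x(2P)` are rational and give a rational point on the elliptic curve
-- `Y² = X (X - 16) (X + 9)` (a model of `X₀(15)`), whose rational points are determined by an
-- explicit 2-descent; the four non-cuspidal points force `5 ∣ c₄` and `5 ∣ Δ`, contradicting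
-- semistability.
import Fermat.Statements.S51
import Fermat.Agent.S51.Galois
import Fermat.Agent.S51.Tors3
import Fermat.Agent.S51.Tors5
import Fermat.Agent.S51.Identities
import Fermat.Agent.S51.Semistable
import Fermat.Agent.S51.DescentMain

set_option autoImplicit false
open WeierstrassCurve WeierstrassCurve.Affine WeierstrassCurve.Affine.Point
open CuspForm ModularFormClass UpperHalfPlane

namespace Fermat.Agent.S51

open scoped WeierstrassCurve.Affine

local notation "Kbar" => AlgebraicClosure ℚ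

theorem result (W : WeierstrassCurve ℤ) (hΔ : W.Δ ≠ 0) (hW : W.IsSemistableModel) : W.ModRepIsIrreducible 3 ∨ W.ModRepIsIrreducible 5 := by
  by_contra hcon
  rw [not_or] at hcon
  obtain ⟨hred3, hred5⟩ := hcon
  set E : WeierstrassCurve ℚ := W.map (Int.castRingHom ℚ) with hE
  set V : WeierstrassCurve Kbar := E⁄Kbar with hV
  let φ : ℚ →+* Kbar := algebraMap ℚ Kbar
  have hb2 : V.b₂ = φ ((W.b₂ : ℤ) : ℚ) := by
    simp [φ, hV, hE, WeierstrassCurve.baseChange, WeierstrassCurve.map_b₂]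
  have hb4 : V.b₄ = φ ((W.b₄ : ℤ) : ℚ) := by
    simp [φ, hV, hE, WeierstrassCurve.baseChange, WeierstrassCurve.map_b₄]
  have hb6 : V.b₆ = φ ((W.b₆ : ℤ) : ℚ) := by
    simp [φ, hV, hE, WeierstrassCurve.baseChange, WeierstrassCurve.map_b₆]
  have hb8 : V.b₈ = φ ((W.b₈ : ℤ) : ℚ) := by
    simp [φ, hV, hE, WeierstrassCurve.baseChange, WeierstrassCurve.map_b₈]
  have hVΔ : V.Δ ≠ 0 := by
    have : V.Δ = ((W.Δ : ℚ) : Kbar) := by
      simp [hV, hE, WeierstrassCurve.baseChange, WeierstrassCurve.map_Δ]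
    rw [this]
    exact_mod_cast hΔ
  -- torsion points exist and there are few of them
  have hnt3 : Nontrivial (Submodule.torsionBy ℤ (E⁄Kbar).Point ((3 : ℕ) : ℤ)) :=
    nontrivial_torsionBy_three (E := V) hVΔ
  obtain ⟨hfin3, hcard3⟩ := finite_and_card_torsionBy_three_le (E := V)
  have hnt5 : Nontrivial (Submodule.torsionBy ℤ (E⁄Kbar).Point ((5 : ℕ) : ℤ)) :=
    tors5_nontrivial V hVΔ
  obtain ⟨hfin5, hcard5⟩ := tors5_card_le V
  -- the Galois-stable lines
  obtain ⟨R, hR0, hR3, -, q0, hq0⟩ := exists_point_three hnt3 hfin3 hcard3 hred3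
  obtain ⟨P, hP0, hP5, -, q1, q2, hq1, hq2⟩ :=
    exists_point_five hnt5 hfin5 (hcard5.trans (by norm_num)) hred5
  obtain ⟨h01, h02⟩ := xCoord_ne_and_ne hR0 hR3 hP0 hP5
  have hpsi : psi3 V (xCoord R) = 0 :=
    psi3_xCoord_of_add_add_self hR0 (by rw [← three_zsmul]; exact_mod_cast hR3)
  obtain ⟨x1, y1, hxy1, x2, y2, hxy2, rfl, h2P, hf1, -, h12, h21, hne⟩ :=
    tors5_structure V hP0 hP5
  rw [h2P] at hq1 hq2 h02
  simp only [xCoord_some] at hq1 hq2 h01 h02
  -- the identities over `Kbar`, then over `ℚ`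
  have key := identities V.b₂ V.b₄ V.b₆ V.b₈ (xCoord R) x1 x2 V.b_relation hpsi hf1 h12 h21 hne
    h01 h02
  rw [hq1, hq2, hq0, hb2, hb4, hb6, hb8] at key
  have keyQ := Identities.of_map φ key
  refine endgame W.c₄ W.Δ hΔ hW _ _ _ _ _ ?_ keyQ.I2 keyQ.I3 keyQ.X_ne keyQ.I4 theoremE
  have := keyQ.I1
  rw [WeierstrassCurve.c₄, WeierstrassCurve.Δ]
  push_cast
  exact this

end Fermat.Agent.S51
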