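import Mathlib
import Fermat.Prelude.Def_EllipticCurve_FrobeniusTrace
import Fermat.Prelude.Def_FLTPrelim_Ramification

/-!
# Existence of Frobenius elements in `Gal(ℚ̄/ℚ)`

For every prime `ℓ` there is a valuation subring `A` of `ℚ̄` lying over `ℓ` and an element
`σ` of the absolute Galois group which is a Frobenius element at `A`.
-/

set_option autoImplicit false

namespace Fermat.Agent.S54

open Polynomial
open scoped Pointwise

section rep

theorem coeff_divX_iterate' (p : ℤ[X]) (k n : ℕ) : (divX^[k] p).coeff n = p.coeff (n + k) := by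
  induction k generalizing n with
  | zero => simp
  | succ k ih =>
    rw [Function.iterate_succ_apply', coeff_divX, ih]
    congr 1
    ring

theorem aeval_divX_iterate {R : Type*} [CommRing R] (x : R) (p : ℤ[X]) (k : ℕ) :
    aeval x (divX^[k] p) = x * aeval x (divX^[k+1] p) + ((p.coeff k : ℤ) : R) := by
  have h := Polynomial.divX_mul_X_add (divX^[k] p)
  have hc : (divX^[k] p).coeff 0 = p.coeff k := by
    rw [coeff_divX_iterate', zero_add]
  rw [Function.iterate_succ_apply']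
  conv_lhs => rw [← h]
  rw [map_add, map_mul, aeval_X, aeval_C, hc, mul_comm]
  simp

variable {K : Type*} [Field K]

theorem coe_aeval_valuationSubring (V : ValuationSubring K) (x : V) (q : ℤ[X]) :
    ((aeval x q : V) : K) = aeval (x : K) q :=
  (Polynomial.aeval_algHom_apply ((V.subtype : V →+* K).toIntAlgHom) x q).symm

/-- polynomials with integer coefficients evaluated at an element of a valuation subring -/
theorem aeval_mem_valuationSubring (V : ValuationSubring K) {x : K} (hx : x ∈ V) (q : ℤ[X]) :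
    aeval x q ∈ V := by
  rw [← coe_aeval_valuationSubring V ⟨x, hx⟩ q]
  exact (aeval (⟨x, hx⟩ : V) q).2

theorem aeval_mem_ideal_of_coeff_mem {R : Type*} [CommRing R] (I : Ideal R) (x : R) (q : ℤ[X])
    (h : ∀ i, ((q.coeff i : ℤ) : R) ∈ I) : aeval x q ∈ I := by
  rw [aeval_eq_sum_range]
  refine Ideal.sum_mem _ fun i _ => ?_
  rw [zsmul_eq_mul]
  exact Ideal.mul_mem_right _ _ (h i)

/-- `Y_k` lies in every valuation subring. -/
theorem aeval_divX_iterate_mem (V : ValuationSubring K) {x : K} {p : ℤ[X]} (hp : aeval x p = 0)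
    (k : ℕ) : aeval x (divX^[k] p) ∈ V := by
  rcases V.mem_or_inv_mem x with hx | hx
  · exact aeval_mem_valuationSubring V hx _
  · by_cases hx0 : x = 0
    · subst hx0
      exact aeval_mem_valuationSubring V V.zero_mem _
    induction k with
    | zero => simp [hp, V.zero_mem]
    | succ k ih =>
      have h := aeval_divX_iterate x p k
      have : aeval x (divX^[k+1] p) = x⁻¹ * (aeval x (divX^[k] p) - ((p.coeff k : ℤ) : K)) := by
        rw [h]; field_simp; ring
      rw [this]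
      exact V.mul_mem _ _ hx (sub_mem ih (intCast_mem V _))

theorem mul_aeval_divX_iterate_mem (V : ValuationSubring K) {x : K} {p : ℤ[X]} (hp : aeval x p = 0)
    (k : ℕ) : x * aeval x (divX^[k] p) ∈ V := by
  rcases V.mem_or_inv_mem x with hx | hx
  · exact V.mul_mem _ _ hx (aeval_mem_valuationSubring V hx _)
  · cases k with
    | zero => simp [hp, V.zero_mem]
    | succ k =>
      have h := aeval_divX_iterate x p k
      have : x * aeval x (divX^[k+1] p) = aeval x (divX^[k] p) - ((p.coeff k : ℤ) : K) := by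
        rw [h]; ring
      rw [this]
      exact sub_mem (aeval_divX_iterate_mem V hp k) (intCast_mem V _)

/-- An element lying in every valuation subring is integral over `ℤ`. -/
theorem isIntegral_of_forall_mem {y : K} (h : ∀ V : ValuationSubring K, y ∈ V) :
    IsIntegral ℤ y := by
  by_contra hy
  have hy' : y ∉ (integralClosure ℤ K).toSubring := hy
  have : IsIntegrallyClosedIn (integralClosure ℤ K).toSubring K :=
    inferInstanceAs (IsIntegrallyClosedIn (integralClosure ℤ K) K)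
  obtain ⟨V, -, hV⟩ := Subring.exists_le_valuationSubring_of_isIntegrallyClosedIn hy'
  exact hV (h V)

theorem dvd_of_intCast_mem_maximalIdeal (A : ValuationSubring K) {ℓ : ℕ} (hℓ : ℓ.Prime)
    (hA : (ℓ : A) ∈ IsLocalRing.maximalIdeal A) (n : ℤ)
    (hn : (n : A) ∈ IsLocalRing.maximalIdeal A) : (ℓ : ℤ) ∣ n := by
  by_contra hdvd
  have hcop : IsCoprime (ℓ : ℤ) n :=
    (Nat.prime_iff_prime_int.mp hℓ).coprime_iff_not_dvd.mpr hdvd
  obtain ⟨u, v, huv⟩ := hcop
  have h1 : ((u * ℓ + v * n : ℤ) : A) ∈ IsLocalRing.maximalIdeal A := by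
    push_cast
    exact Ideal.add_mem _ (Ideal.mul_mem_left _ _ hA) (Ideal.mul_mem_left _ _ hn)
  rw [huv, Int.cast_one] at h1
  exact (Ideal.ne_top_iff_one _).mp (IsLocalRing.maximalIdeal.isMaximal A).ne_top h1

theorem exists_integral_rep [CharZero K] (A : ValuationSubring K) {ℓ : ℕ} (hℓ : ℓ.Prime)
    (hA : (ℓ : A) ∈ IsLocalRing.maximalIdeal A) (x : A) (hxalg : IsAlgebraic ℤ (x : K)) :
    ∃ (k : ℕ) (p : ℤ[X]), aeval (x : K) p = 0 ∧
      aeval x (divX^[k] p) ∉ IsLocalRing.maximalIdeal A := by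
  classical
  obtain ⟨p₀, hp₀, hp₀x⟩ := hxalg
  have hprim : p₀.primPart.IsPrimitive := p₀.isPrimitive_primPart
  have hpx : aeval (x : K) p₀.primPart = 0 := Polynomial.aeval_primPart_eq_zero hp₀ hp₀x
  set p := p₀.primPart with hp
  let P : ℕ → Prop := fun m => ∀ i, m ≤ i → ((p.coeff i : ℤ) : A) ∈ IsLocalRing.maximalIdeal A
  have hP1 : P (p.natDegree + 1) := by
    intro i hi
    rw [coeff_eq_zero_of_natDegree_lt (by omega)]
    simp
  have hP0 : ¬ P 0 := by
    intro h0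
    have hdvd : C (ℓ : ℤ) ∣ p := by
      rw [Polynomial.C_dvd_iff_dvd_coeff]
      intro i
      exact dvd_of_intCast_mem_maximalIdeal A hℓ hA _ (h0 i (Nat.zero_le _))
    have hu := hprim _ hdvd
    rw [Int.isUnit_iff] at hu
    have := hℓ.two_le
    omega
  have hex : ∃ m, P m := ⟨_, hP1⟩
  have hm : P (Nat.find hex) := Nat.find_spec hex
  have hm0 : Nat.find hex ≠ 0 := fun h => hP0 (h ▸ hm)
  obtain ⟨k, hk⟩ := Nat.exists_eq_succ_of_ne_zero hm0
  have hk' : ¬ P k := Nat.find_min hex (by omega)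
  rw [hk] at hm
  have hak : ((p.coeff k : ℤ) : A) ∉ IsLocalRing.maximalIdeal A := by
    intro hmem
    apply hk'
    intro i hi
    rcases Nat.eq_or_lt_of_le hi with rfl | hlt
    · exact hmem
    · exact hm i (by omega)
  refine ⟨k, p, hpx, ?_⟩
  rw [aeval_divX_iterate x p k]
  intro hmem
  apply hak
  have hY : aeval x (divX^[k+1] p) ∈ IsLocalRing.maximalIdeal A := by
    apply aeval_mem_ideal_of_coeff_mem
    intro i
    rw [coeff_divX_iterate']
    exact hm _ (by omega)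
  have := Ideal.sub_mem _ hmem (Ideal.mul_mem_left _ x hY)
  simpa using this

theorem mem_valuationSubring_of_isIntegral (A : ValuationSubring K) {x : K} (hx : IsIntegral ℤ x) :
    x ∈ A := by
  have h1 : IsIntegral A x := hx.tower_top
  obtain ⟨y, hy⟩ := (IsIntegrallyClosedIn.isIntegral_iff (R := A) (A := K)).mp h1
  rw [← hy]
  exact y.2

/-- every element of `A` is a quotient `z / y` of integral elements with `y` a unit of `A` -/
theorem exists_integral_rep' [CharZero K] (A : ValuationSubring K) {ℓ : ℕ} (hℓ : ℓ.Prime)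
    (hA : (ℓ : K) ∈ A.nonunits) {x : K} (hx : x ∈ A) (hxalg : IsAlgebraic ℤ x) :
    ∃ y z : K, IsIntegral ℤ y ∧ IsIntegral ℤ z ∧ y ∉ A.nonunits ∧ x * y = z := by
  have hA' : (ℓ : A) ∈ IsLocalRing.maximalIdeal A := by
    rw [← ValuationSubring.coe_mem_nonunits_iff]
    simpa using hA
  obtain ⟨k, p, hp, hk⟩ := exists_integral_rep A hℓ hA' ⟨x, hx⟩ hxalg
  refine ⟨aeval x (divX^[k] p), x * aeval x (divX^[k] p), ?_, ?_, ?_, rfl⟩
  · exact isIntegral_of_forall_mem fun V => aeval_divX_iterate_mem V hp k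
  · exact isIntegral_of_forall_mem fun V => mul_aeval_divX_iterate_mem V hp k
  · rw [← ValuationSubring.coe_mem_nonunits_iff, coe_aeval_valuationSubring] at hk
    exact hk

theorem inv_mem_of_not_mem_nonunits (A : ValuationSubring K) {y : K} (hy : y ∈ A)
    (hy' : y ∉ A.nonunits) : y⁻¹ ∈ A := by
  rw [ValuationSubring.mem_nonunits_iff, not_lt] at hy'
  rw [← ValuationSubring.valuation_le_one_iff] at hy ⊢
  have h1 : A.valuation y = 1 := le_antisymm hy hy'
  rw [map_inv₀, h1, inv_one]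

end rep

section main
variable {K : Type*} [Field K] {k : Type*} [Field k] [Algebra k K]

theorem map_mem_of_stabilizes [CharZero K] (A : ValuationSubring K) {ℓ : ℕ} (hℓ : ℓ.Prime)
    (hA : (ℓ : K) ∈ A.nonunits) (halg : ∀ x : K, IsAlgebraic ℤ x) (τ : K ≃ₐ[k] K)
    (hτ : ∀ b : K, IsIntegral ℤ b → (b ∈ A.nonunits ↔ τ b ∈ A.nonunits)) {a : K} (ha : a ∈ A) :
    τ a ∈ A := by
  obtain ⟨y, z, hy, hz, hyA, hxy⟩ := exists_integral_rep' A hℓ hA ha (halg a)
  have hτy : IsIntegral ℤ (τ y) := map_isIntegral_int τ hy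
  have hτz : IsIntegral ℤ (τ z) := map_isIntegral_int τ hz
  have hτyA : τ y ∉ A.nonunits := fun h => hyA ((hτ y hy).mpr h)
  have hτy0 : τ y ≠ 0 := fun h => hτyA (h ▸ A.nonunits.zero_mem)
  have h1 : τ a * τ y = τ z := by rw [← map_mul, hxy]
  have h2 : τ a = τ z * (τ y)⁻¹ := by
    rw [← h1, mul_assoc, mul_inv_cancel₀ hτy0, mul_one]
  rw [h2]
  exact A.mul_mem _ _ (mem_valuationSubring_of_isIntegral A hτz)
    (inv_mem_of_not_mem_nonunits A (mem_valuationSubring_of_isIntegral A hτy) hτyA)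

theorem residue_smul_eq_pow (A : ValuationSubring K) {ℓ : ℕ} (σ : K ≃ₐ[k] K)
    (hmem : σ ∈ A.decompositionSubgroup k) (b : A)
    (hb : σ (b : K) - (b : K) ^ ℓ ∈ A.nonunits) :
    (⟨σ, hmem⟩ : A.decompositionSubgroup k) • IsLocalRing.residue A b =
      (IsLocalRing.residue A b) ^ ℓ := by
  rw [← IsLocalRing.ResidueField.residue_smul, ← map_pow, ← sub_eq_zero, ← map_sub,
    IsLocalRing.residue_eq_zero_iff, ← ValuationSubring.coe_mem_nonunits_iff]
  exact hb

theorem isFrobeniusAt_of_aux [CharZero K] (A : ValuationSubring K) {ℓ : ℕ} (hℓ : ℓ.Prime)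
    (hA : (ℓ : K) ∈ A.nonunits) (halg : ∀ x : K, IsAlgebraic ℤ x) (σ : K ≃ₐ[k] K)
    (hmem : σ ∈ A.decompositionSubgroup k)
    (hσ2 : ∀ b : K, IsIntegral ℤ b → σ b - b ^ ℓ ∈ A.nonunits) (a : A) :
    (⟨σ, hmem⟩ : A.decompositionSubgroup k) • IsLocalRing.residue A a =
      (IsLocalRing.residue A a) ^ ℓ := by
  obtain ⟨y, z, hy, hz, hyA, hxy⟩ := exists_integral_rep' A hℓ hA a.2 (halg a)
  let yA : A := ⟨y, mem_valuationSubring_of_isIntegral A hy⟩
  let zA : A := ⟨z, mem_valuationSubring_of_isIntegral A hz⟩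
  have h1 : a * yA = zA := Subtype.ext hxy
  have hy1 := residue_smul_eq_pow A σ hmem yA (hσ2 y hy)
  have hz1 := residue_smul_eq_pow A σ hmem zA (hσ2 z hz)
  have hyne : IsLocalRing.residue A yA ≠ 0 := by
    rw [Ne, IsLocalRing.residue_eq_zero_iff, ← ValuationSubring.coe_mem_nonunits_iff]
    exact hyA
  have h2 : IsLocalRing.residue A a * IsLocalRing.residue A yA = IsLocalRing.residue A zA := by
    rw [← map_mul, h1]
  have h3 := congrArg (fun t => (⟨σ, hmem⟩ : A.decompositionSubgroup k) • t) h2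
  simp only [smul_mul'] at h3
  rw [hy1, hz1, ← h2, mul_pow] at h3
  exact mul_right_cancel₀ (pow_ne_zero ℓ hyne) h3

theorem isFrobeniusAt_of [CharZero K] (A : ValuationSubring K) {ℓ : ℕ} (hℓ : ℓ.Prime)
    (hA : (ℓ : K) ∈ A.nonunits) (halg : ∀ x : K, IsAlgebraic ℤ x) (σ : K ≃ₐ[k] K)
    (hσ1 : ∀ b : K, IsIntegral ℤ b → (b ∈ A.nonunits ↔ σ b ∈ A.nonunits))
    (hσ2 : ∀ b : K, IsIntegral ℤ b → σ b - b ^ ℓ ∈ A.nonunits) :
    A.IsFrobeniusAt σ ℓ := by
  have hσ1' : ∀ b : K, IsIntegral ℤ b → (b ∈ A.nonunits ↔ σ⁻¹ b ∈ A.nonunits) := by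
    intro b hb
    have hb' : IsIntegral ℤ (σ⁻¹ b) := map_isIntegral_int (σ⁻¹) hb
    have := hσ1 _ hb'
    rw [this]
    have h3 : σ (σ⁻¹ b) = b := σ.apply_symm_apply b
    rw [h3]
  have hmem : σ ∈ A.decompositionSubgroup k := by
    rw [MulAction.mem_stabilizer_iff]
    ext x
    rw [ValuationSubring.mem_pointwise_smul_iff_inv_smul_mem]
    constructor
    · intro hx
      have := map_mem_of_stabilizes A hℓ hA halg σ hσ1 hx
      have h3 : σ (σ⁻¹ • x) = x := σ.apply_symm_apply x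
      rwa [h3] at this
    · intro hx
      exact map_mem_of_stabilizes A hℓ hA halg σ⁻¹ hσ1' hx
  refine ⟨hmem, ?_⟩
  intro x
  obtain ⟨a, rfl⟩ := IsLocalRing.residue_surjective x
  exact isFrobeniusAt_of_aux A hℓ hA halg σ hmem hσ2 a

end main

noncomputable section frob

local notation "Qbar" => AlgebraicClosure ℚ
local notation "GQ" => (AlgebraicClosure ℚ ≃ₐ[ℚ] AlgebraicClosure ℚ)
local notation "Zbar" => integralClosure ℤ (AlgebraicClosure ℚ)

instance instIsAlgebraicRatAlgClosure : Algebra.IsAlgebraic ℚ Qbar :=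
  AlgebraicClosure.isAlgebraic ℚ

instance instIsAlgClosureRat : IsAlgClosure ℚ Qbar :=
  ⟨inferInstance, inferInstance⟩

theorem exists_valuationSubring_over (ℓ : ℕ) (hℓ : ℓ.Prime) :
    ∃ A : ValuationSubring Qbar, (ℓ : Qbar) ∈ A.nonunits := by
  let R₀ : Subring Qbar := ⊥
  let I : Ideal R₀ := Ideal.span {(ℓ : R₀)}
  have hI : I ≠ ⊤ := by
    intro h
    rw [Ideal.span_singleton_eq_top] at h
    obtain ⟨u, hu⟩ := h.exists_right_inv
    obtain ⟨m, hm⟩ := Subring.mem_bot.mp u.2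
    have h1 : ((ℓ : R₀) : Qbar) * (u : Qbar) = 1 := by
      have := congrArg (Subring.subtype R₀) hu
      simpa using this
    rw [← hm] at h1
    have h2 : ((ℓ * m : ℤ) : Qbar) = ((1 : ℤ) : Qbar) := by push_cast; simpa using h1
    have h3 : (ℓ : ℤ) * m = 1 := Int.cast_injective h2
    have h4 : (ℓ : ℤ) ∣ 1 := ⟨m, h3.symm⟩
    have := Int.le_of_dvd one_pos h4
    have := hℓ.two_le
    omega
  obtain ⟨A, -, hA⟩ := Ideal.image_subset_nonunits_valuationSubring I hI
  refine ⟨A, hA ⟨(ℓ : R₀), Ideal.subset_span rfl, ?_⟩⟩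
  simp

theorem isInvariant_Zbar : Algebra.IsInvariant ℤ Zbar GQ := by
  refine ⟨fun b hb => ?_⟩
  have h1 : (b : Qbar) ∈ Set.range (algebraMap ℚ Qbar) := by
    rw [InfiniteGalois.mem_range_algebraMap_iff_fixed]
    intro f
    exact congrArg Subtype.val (hb f)
  obtain ⟨r, hr⟩ := h1
  have h2 : IsIntegral ℤ r := by
    have h3 : IsIntegral ℤ (b : Qbar) := b.2
    rw [← hr] at h3
    exact (isIntegral_algebraMap_iff (algebraMap ℚ Qbar).injective).mp h3
  obtain ⟨n, hn⟩ := IsIntegrallyClosed.isIntegral_iff.mp h2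
  refine ⟨n, Subtype.ext ?_⟩
  rw [← hr, ← hn]
  simp

theorem continuousSMul_Zbar [TopologicalSpace Zbar] [DiscreteTopology Zbar] :
    ContinuousSMul GQ Zbar := by
  rw [continuousSMul_iff_stabilizer_isOpen]
  intro b
  have h := stabilizer_isOpen_of_isIntegral (K := ℚ) (L := Qbar) (b : Qbar)
  convert h using 1
  ext g
  simp only [SetLike.mem_coe, MulAction.mem_stabilizer_iff]
  constructor
  · intro hg
    exact congrArg Subtype.val hg
  · intro hg
    exact Subtype.ext hg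

/-- The Frobenius automorphism of `Zbar ⧸ Q`. -/
theorem exists_frobenius_algEquiv {ℓ : ℕ} (hℓ : ℓ.Prime) (P : Ideal ℤ) (Q : Ideal Zbar)
    [Q.IsPrime] [Q.LiesOver P] (hℓQ : (ℓ : Zbar) ∈ Q) :
    ∃ F : (Zbar ⧸ Q) ≃ₐ[ℤ ⧸ P] (Zbar ⧸ Q), ∀ x, F x = x ^ ℓ := by
  have : Fact ℓ.Prime := ⟨hℓ⟩
  have hℓ0 : ((ℓ : ℕ) : Zbar ⧸ Q) = 0 := by
    rw [← map_natCast (Ideal.Quotient.mk Q)]
    exact Ideal.Quotient.eq_zero_iff_mem.mpr hℓQ
  have : CharP (Zbar ⧸ Q) ℓ := (CharP.charP_iff_prime_eq_zero hℓ).mpr hℓ0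
  let Fhom : (Zbar ⧸ Q) →ₐ[ℤ ⧸ P] (Zbar ⧸ Q) :=
    { frobenius (Zbar ⧸ Q) ℓ with
      commutes' := fun r => by
        obtain ⟨n, rfl⟩ := Ideal.Quotient.mk_surjective r
        have h1 : (Ideal.Quotient.mk P) n = ((n : ℤ) : ℤ ⧸ P) := by simp
        rw [h1, map_intCast]
        exact map_intCast (frobenius (Zbar ⧸ Q) ℓ) n }
  have hFhom : ∀ x, Fhom x = x ^ ℓ := fun x => rfl
  have hinj : Function.Injective Fhom := by
    intro x y hxy
    rw [hFhom, hFhom] at hxy
    exact frobenius_inj (Zbar ⧸ Q) ℓ hxy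
  have hsurj : Function.Surjective Fhom := by
    intro x
    obtain ⟨b, rfl⟩ := Ideal.Quotient.mk_surjective x
    obtain ⟨c, hc⟩ := IsAlgClosed.exists_pow_nat_eq (b : Qbar) hℓ.pos
    have hcint : IsIntegral ℤ c := IsIntegral.of_pow hℓ.pos (hc ▸ b.2)
    refine ⟨Ideal.Quotient.mk Q ⟨c, hcint⟩, ?_⟩
    rw [hFhom, ← map_pow]
    congr 1
    exact Subtype.ext hc
  exact ⟨AlgEquiv.ofBijective Fhom ⟨hinj, hsurj⟩, fun x => hFhom x⟩

theorem isAlgebraic_int_Qbar (x : Qbar) : IsAlgebraic ℤ x :=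
  (IsFractionRing.isAlgebraic_iff ℤ ℚ Qbar).mpr (Algebra.IsAlgebraic.isAlgebraic x)

/-- Existence of a place over `ℓ` in `ℚ̄` together with a Frobenius lift. -/
theorem exists_frobenius (ℓ : ℕ) (hℓ : ℓ.Prime) :
    ∃ (A : ValuationSubring Qbar), A.LiesOverPrime ℓ ∧ ∃ σ : GQ, A.IsFrobeniusAt σ ℓ := by
  obtain ⟨A, hA⟩ := exists_valuationSubring_over ℓ hℓ
  refine ⟨A, hA, ?_⟩
  have hBA : ∀ b : Zbar, (algebraMap Zbar Qbar) b ∈ A :=
    fun b => mem_valuationSubring_of_isIntegral A b.2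
  let ι : Zbar →+* A := (algebraMap Zbar Qbar).codRestrict A hBA
  let Q : Ideal Zbar := (IsLocalRing.maximalIdeal A).comap ι
  have hQmem : ∀ b : Zbar, b ∈ Q ↔ (b : Qbar) ∈ A.nonunits := by
    intro b
    exact (ValuationSubring.coe_mem_nonunits_iff (A := A) (a := ι b)).symm
  have hQprime : Q.IsPrime := Ideal.IsPrime.comap ι
  let P : Ideal ℤ := Ideal.span {(ℓ : ℤ)}
  have hPmax : P.IsMaximal :=
    PrincipalIdealRing.isMaximal_of_irreducible (Nat.prime_iff_prime_int.mp hℓ).irreducible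
  have hℓQ : (ℓ : Zbar) ∈ Q := by
    rw [hQmem]
    simpa using hA
  have hQP : Q.LiesOver P := by
    refine ⟨?_⟩
    apply hPmax.eq_of_le
    · intro h
      have h1 : (1 : ℤ) ∈ Q.under ℤ := by rw [h]; trivial
      rw [Ideal.under_def, Ideal.mem_comap, map_one] at h1
      exact hQprime.ne_top ((Ideal.eq_top_iff_one _).mpr h1)
    · rw [Ideal.span_le]
      intro x hx
      rw [Set.mem_singleton_iff] at hx
      subst hx
      rw [SetLike.mem_coe, Ideal.under_def, Ideal.mem_comap]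
      simpa using hℓQ
  obtain ⟨F, hF⟩ := exists_frobenius_algEquiv hℓ P Q hℓQ
  letI : TopologicalSpace Zbar := ⊥
  have : DiscreteTopology Zbar := ⟨rfl⟩
  have := continuousSMul_Zbar
  have := isInvariant_Zbar
  obtain ⟨⟨σ, hσ⟩, hσF⟩ :=
    Ideal.Quotient.stabilizerHom_surjective_of_profinite (G := GQ) P Q F
  rw [MulAction.mem_stabilizer_iff] at hσ
  refine ⟨σ, isFrobeniusAt_of A hℓ hA isAlgebraic_int_Qbar σ ?_ ?_⟩
  · intro b hb
    have h1 := hQmem ⟨b, hb⟩
    have h2 := hQmem (σ • ⟨b, hb⟩)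
    have h3 : (σ • (⟨b, hb⟩ : Zbar)) ∈ σ • Q ↔ (⟨b, hb⟩ : Zbar) ∈ Q :=
      Ideal.smul_mem_pointwise_smul_iff
    rw [hσ] at h3
    rw [← h1, ← h3, h2]
    rfl
  · intro b hb
    have h1 := DFunLike.congr_fun hσF (Ideal.Quotient.mk Q ⟨b, hb⟩)
    rw [Ideal.Quotient.stabilizerHom_apply, hF, ← map_pow, Ideal.Quotient.eq] at h1
    exact (hQmem _).mp h1

end frob

end Fermat.Agent.S54
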