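import Mathlib.RingTheory.Artinian.Module
import Mathlib.RingTheory.FiniteLength
import Mathlib.Algebra.Module.Torsion.Basic
import Mathlib.RingTheory.LocalRing.ResidueField.Basic
import Mathlib.RingTheory.Artinian.Ring

set_option autoImplicit false
set_option linter.style.haveILetI false

namespace Fermat.Agent.S57

/-- A module over an `𝒪`-algebra `S` that is killed by the maximal ideal of the local ring `𝒪` and
spanned over `𝒪` by finitely many elements is Artinian over `S`. -/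
theorem isArtinian_of_residue_span {𝒪 S Q : Type*} [CommRing 𝒪] [IsLocalRing 𝒪] [CommRing S]
    [Algebra 𝒪 S] [AddCommGroup Q] [Module S Q]
    (hkill : ∀ a ∈ IsLocalRing.maximalIdeal 𝒪, ∀ q : Q, algebraMap 𝒪 S a • q = 0)
    {d : ℕ} (g : Fin d → Q)
    (hspan : ∀ q : Q, ∃ a : Fin d → 𝒪, q = ∑ i, algebraMap 𝒪 S (a i) • g i) :
    IsArtinian S Q := by
  letI : Module 𝒪 Q := Module.compHom Q (algebraMap 𝒪 S)
  haveI : IsScalarTower 𝒪 S Q := IsScalarTower.of_algebraMap_smul fun _ _ => rfl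
  have hT : Module.IsTorsionBySet 𝒪 Q (IsLocalRing.maximalIdeal 𝒪 : Set 𝒪) := by
    intro q a
    exact hkill a.1 a.2 q
  letI : Module (𝒪 ⧸ IsLocalRing.maximalIdeal 𝒪) Q := hT.module
  haveI : Module.Finite 𝒪 Q := by
    refine Module.Finite.of_surjective (Fintype.linearCombination 𝒪 g) ?_
    intro q
    obtain ⟨a, ha⟩ := hspan q
    refine ⟨a, ?_⟩
    rw [ha, Fintype.linearCombination_apply]
    rfl
  haveI : Module.Finite (𝒪 ⧸ IsLocalRing.maximalIdeal 𝒪) Q :=
    Module.Finite.of_restrictScalars_finite 𝒪 _ _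
  haveI : IsArtinianRing (𝒪 ⧸ IsLocalRing.maximalIdeal 𝒪) := by
    letI := Ideal.Quotient.field (IsLocalRing.maximalIdeal 𝒪)
    infer_instance
  haveI : IsArtinian (𝒪 ⧸ IsLocalRing.maximalIdeal 𝒪) Q := inferInstance
  haveI : IsArtinian 𝒪 Q :=
    isArtinian_of_surjective_algebraMap (R := 𝒪 ⧸ IsLocalRing.maximalIdeal 𝒪)
      Ideal.Quotient.mk_surjective
  exact isArtinian_of_tower 𝒪 inferInstance

end Fermat.Agent.S57
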