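import Mathlib.RingTheory.Regular.ProjectiveDimension
import Mathlib.RingTheory.FiniteLength
import Mathlib.RingTheory.LocalRing.Module

set_option autoImplicit false

namespace Fermat.Agent.S57

open CategoryTheory RingTheory.Sequence IsLocalRing

variable {T : Type} [CommRing T] [IsLocalRing T]

/-- Finite length modules over a local ring have projective dimension bounded by that of the
residue field. -/
theorem hasProjectiveDimensionLE_of_isFiniteLength (n : ℕ)
    (hk : HasProjectiveDimensionLE (ModuleCat.of T (T ⧸ maximalIdeal T)) n)
    (L : Type) [AddCommGroup L] [Module T L] (hL : IsFiniteLength T L) :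
    HasProjectiveDimensionLE (ModuleCat.of T L) n := by
  induction hL with
  | @of_subsingleton M _ _ _ =>
    have hz : Limits.IsZero (ModuleCat.of T M) := ModuleCat.isZero_of_subsingleton _
    have := hz.hasProjectiveDimensionLT_zero
    exact hasProjectiveDimensionLT_of_ge _ 0 _ (Nat.zero_le _)
  | @of_simple_quotient M _ _ N hs h ih =>
    obtain ⟨I, hI, ⟨e⟩⟩ := isSimpleModule_iff_quot_maximal.mp hs
    have hIm : I = maximalIdeal T := IsLocalRing.eq_maximalIdeal hI
    subst hIm
    have h3 : HasProjectiveDimensionLE (ModuleCat.of T (M ⧸ N)) n :=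
      ModuleCat.hasProjectiveDimensionLE_of_linearEquiv
        (M := ModuleCat.of T (T ⧸ maximalIdeal T)) (N := ModuleCat.of T (M ⧸ N)) e.symm n
    let S := (N.mkQ).shortComplexKer
    have hS : S.ShortExact := LinearMap.shortExact_shortComplexKer N.mkQ_surjective
    have e1 : (LinearMap.ker N.mkQ) ≃ₗ[T] N := LinearEquiv.ofEq _ _ N.ker_mkQ
    have h1 : HasProjectiveDimensionLE S.X₁ n :=
      ModuleCat.hasProjectiveDimensionLE_of_linearEquiv
        (M := ModuleCat.of T N) (N := ModuleCat.of T (LinearMap.ker N.mkQ)) e1.symm n
    exact hS.hasProjectiveDimensionLT_X₂ (n + 1) h1 h3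

variable [IsNoetherianRing T]

/-- A finitely generated module of maximal depth over a regular local ring is free
(in the form needed: the maximal ideal is generated by a regular sequence `xs`, the module has a
weakly regular sequence `ys` in the maximal ideal of the same length, with quotient of finite
length). -/
theorem free_of_isWeaklyRegular_of_isFiniteLength
    (xs : List T) (hxs : IsRegular T xs) (hmax : Ideal.ofList xs = maximalIdeal T)
    {N : Type} [AddCommGroup N] [Module T N] [Module.Finite T N] [Nontrivial N]
    (ys : List T) (hys : IsWeaklyRegular N ys) (hmem : ∀ y ∈ ys, y ∈ maximalIdeal T)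
    (hlen : ys.length = xs.length)
    (hfl : IsFiniteLength T (N ⧸ Ideal.ofList ys • (⊤ : Submodule T N))) :
    Module.Free T N := by
  -- projective dimension of the residue field
  have hk0 := ModuleCat.projectiveDimension_quotient_eq_length.{0} xs hxs
  have hk1 : projectiveDimension (ModuleCat.of T (T ⧸ maximalIdeal T)) = xs.length := by
    rw [← hk0, hmax]
    exact ModuleCat.projectiveDimension_eq_of_linearEquiv
      (M := ModuleCat.of T (T ⧸ maximalIdeal T))
      (N := ModuleCat.of T (Shrink.{0} (T ⧸ maximalIdeal T)))
      (Shrink.linearEquiv T (T ⧸ maximalIdeal T)).symm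
  have hk : HasProjectiveDimensionLE (ModuleCat.of T (T ⧸ maximalIdeal T)) xs.length := by
    rw [← projectiveDimension_le_iff, hk1]
  have hq := hasProjectiveDimensionLE_of_isFiniteLength xs.length hk _ hfl
  rw [← projectiveDimension_le_iff] at hq
  have hpd := ModuleCat.projectiveDimension_quotient_eq_add_length_of_isWeaklyRegular
    (ModuleCat.of T N) ys hys hmem
  rw [hpd, hlen] at hq
  have h0 : projectiveDimension (ModuleCat.of T N) ≤ (0 : ℕ) := by
    have : projectiveDimension (ModuleCat.of T N) + (xs.length : ℕ) ≤
        ((0 : ℕ) : WithBot ℕ∞) + (xs.length : ℕ) := by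
      simpa using hq
    exact ENat.WithBot.add_le_add_natCast_right_iff.mp this
  rw [projectiveDimension_le_iff, ← projective_iff_hasProjectiveDimensionLE_zero,
    ← IsProjective.iff_projective] at h0
  exact Module.free_of_flat_of_isLocalRing

end Fermat.Agent.S57
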