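import Mathlib.RingTheory.Regular.RegularSequence
import Mathlib.RingTheory.MvPowerSeries.Equiv
import Mathlib.RingTheory.MvPowerSeries.Inverse
import Mathlib.RingTheory.PowerSeries.Basic

set_option autoImplicit false

namespace Fermat.Agent.S57

open RingTheory.Sequence Pointwise

/-- Weak regularity of a sequence on a ring is transported along ring isomorphisms. -/
theorem isWeaklyRegular_map_ringEquiv {R R' : Type*} [CommRing R] [CommRing R'] (σ : R ≃+* R')
    (rs : List R) : IsWeaklyRegular R rs ↔ IsWeaklyRegular R' (rs.map σ) := by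
  refine AddEquiv.isWeaklyRegular_congr (e := σ.toAddEquiv) ?_
  refine List.forall₂_map_right_iff.mpr (List.forall₂_same.mpr fun r _ x => ?_)
  simp

/-- If `bs` is weakly regular on `B` then `X :: bs.map C` is weakly regular on `B⟦X⟧`. -/
theorem isWeaklyRegular_powerSeries {B : Type*} [CommRing B] (bs : List B)
    (h : IsWeaklyRegular B bs) :
    IsWeaklyRegular (PowerSeries B) (PowerSeries.X :: bs.map (PowerSeries.C (R := B))) := by
  rw [isWeaklyRegular_cons_iff]
  refine ⟨?_, ?_⟩
  · intro a b hab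
    exact PowerSeries.X_mul_cancel (by simpa using hab)
  · -- the additive equivalence `B ≃+ B⟦X⟧ / X`
    let f : B →+ QuotSMulTop (PowerSeries.X : PowerSeries B) (PowerSeries B) :=
      (Submodule.mkQ _).toAddMonoidHom.comp (PowerSeries.C (R := B)).toAddMonoidHom
    have hmem : ∀ g : PowerSeries B,
        g ∈ (PowerSeries.X : PowerSeries B) • (⊤ : Submodule (PowerSeries B) (PowerSeries B)) ↔
          PowerSeries.constantCoeff g = 0 := by
      intro g
      rw [← PowerSeries.X_dvd_iff, Submodule.mem_smul_pointwise_iff_exists]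
      constructor
      · rintro ⟨c, -, rfl⟩
        exact ⟨c, by simp⟩
      · rintro ⟨c, rfl⟩
        exact ⟨c, trivial, by simp⟩
    have hinj : Function.Injective f := by
      rw [injective_iff_map_eq_zero]
      intro a ha
      have : (PowerSeries.C a : PowerSeries B) ∈
          (PowerSeries.X : PowerSeries B) • (⊤ : Submodule (PowerSeries B) (PowerSeries B)) :=
        (Submodule.Quotient.mk_eq_zero _).mp ha
      simpa using (hmem _).mp this
    have hsurj : Function.Surjective f := by
      intro y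
      obtain ⟨g, rfl⟩ := Submodule.mkQ_surjective _ y
      refine ⟨PowerSeries.constantCoeff g, ?_⟩
      change Submodule.Quotient.mk _ = Submodule.Quotient.mk _
      rw [Submodule.Quotient.eq, hmem]
      simp
    let e : B ≃+ QuotSMulTop (PowerSeries.X : PowerSeries B) (PowerSeries B) :=
      AddEquiv.ofBijective f ⟨hinj, hsurj⟩
    refine (AddEquiv.isWeaklyRegular_congr (e := e) ?_).mp h
    refine List.forall₂_map_right_iff.mpr (List.forall₂_same.mpr fun r _ x => ?_)
    change Submodule.Quotient.mk (PowerSeries.C (r • x)) =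
      PowerSeries.C r • Submodule.Quotient.mk (PowerSeries.C x)
    rw [← Submodule.Quotient.mk_smul]
    simp

theorem isWeaklyRegular_mvPowerSeries {A : Type*} [CommRing A] (as : List A)
    (h : IsWeaklyRegular A as) (r : ℕ) :
    IsWeaklyRegular (MvPowerSeries (Fin r) A)
      (List.ofFn (fun i : Fin r => (MvPowerSeries.X i : MvPowerSeries (Fin r) A)) ++
        as.map (MvPowerSeries.C (σ := Fin r) (R := A))) := by
  induction r with
  | zero =>
    rw [isWeaklyRegular_map_ringEquiv (MvPowerSeries.isEmptyEquiv (Fin 0) A).toRingEquiv]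
    simpa [Function.comp_def] using h
  | succ r ih =>
    rw [isWeaklyRegular_map_ringEquiv (MvPowerSeries.finSuccEquiv A r).toRingEquiv]
    have key : List.map (⇑(MvPowerSeries.finSuccEquiv A r).toRingEquiv)
        ((List.ofFn fun i : Fin (r + 1) => (MvPowerSeries.X i : MvPowerSeries (Fin (r + 1)) A)) ++
          List.map (⇑(MvPowerSeries.C (σ := Fin (r + 1)) (R := A))) as) =
        PowerSeries.X :: List.map (⇑(PowerSeries.C (R := MvPowerSeries (Fin r) A)))
          ((List.ofFn fun i : Fin r => (MvPowerSeries.X i : MvPowerSeries (Fin r) A)) ++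
            List.map (⇑(MvPowerSeries.C (σ := Fin r) (R := A))) as) := by
      simp [List.ofFn_succ, List.map_ofFn, Function.comp_def]
    rw [key]
    exact isWeaklyRegular_powerSeries _ ih

/-- Keep only the monomials not involving the first `j` variables. -/
noncomputable def keepFrom {A : Type*} [CommRing A] {r : ℕ} (j : ℕ)
    (f : MvPowerSeries (Fin r) A) : MvPowerSeries (Fin r) A :=
  open Classical in
  fun m => if ∀ i : Fin r, (i : ℕ) < j → m i = 0 then MvPowerSeries.coeff m f else 0

theorem coeff_keepFrom {A : Type*} [CommRing A] {r : ℕ} (j : ℕ)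
    (f : MvPowerSeries (Fin r) A) (m : Fin r →₀ ℕ) :
    MvPowerSeries.coeff m (keepFrom j f) =
      open Classical in
      if ∀ i : Fin r, (i : ℕ) < j → m i = 0 then MvPowerSeries.coeff m f else 0 := rfl

theorem sub_C_constantCoeff_mem_span_X {A : Type*} [CommRing A] {r : ℕ}
    (f : MvPowerSeries (Fin r) A) :
    f - MvPowerSeries.C (MvPowerSeries.constantCoeff f) ∈
      Ideal.span (Set.range fun i : Fin r => (MvPowerSeries.X i : MvPowerSeries (Fin r) A)) := by
  classical
  have h0 : keepFrom 0 f = f := by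
    ext m
    simp [coeff_keepFrom]
  have hr : keepFrom r f = MvPowerSeries.C (MvPowerSeries.constantCoeff f) := by
    ext m
    rw [coeff_keepFrom, MvPowerSeries.coeff_C]
    have : (∀ i : Fin r, (i : ℕ) < r → m i = 0) ↔ m = 0 := by
      constructor
      · intro h
        ext i
        exact h i i.2
      · rintro rfl i _
        rfl
    simp only [this]
    split_ifs with hm
    · subst hm
      exact MvPowerSeries.coeff_zero_eq_constantCoeff_apply f
    · rfl
  have hstep : ∀ j : ℕ, j < r → keepFrom j f - keepFrom (j + 1) f ∈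
      Ideal.span (Set.range fun i : Fin r => (MvPowerSeries.X i : MvPowerSeries (Fin r) A)) := by
    intro j hj
    have hdvd : (MvPowerSeries.X (⟨j, hj⟩ : Fin r) : MvPowerSeries (Fin r) A) ∣
        keepFrom j f - keepFrom (j + 1) f := by
      rw [MvPowerSeries.X_dvd_iff]
      intro m hm
      rw [map_sub, coeff_keepFrom, coeff_keepFrom]
      have : (∀ i : Fin r, (i : ℕ) < j + 1 → m i = 0) ↔ (∀ i : Fin r, (i : ℕ) < j → m i = 0) := by
        constructor
        · intro h i hi
          exact h i (Nat.lt_succ_of_lt hi)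
        · intro h i hi
          rcases Nat.lt_succ_iff_lt_or_eq.mp hi with h1 | h1
          · exact h i h1
          · have : i = ⟨j, hj⟩ := Fin.ext h1
            rw [this]; exact hm
      simp only [this, sub_self]
    obtain ⟨g, hg⟩ := hdvd
    rw [hg]
    exact Ideal.mul_mem_right _ _ (Ideal.subset_span ⟨_, rfl⟩)
  have hsum : f - MvPowerSeries.C (MvPowerSeries.constantCoeff f) =
      ∑ j ∈ Finset.range r, (keepFrom j f - keepFrom (j + 1) f) := by
    rw [Finset.sum_range_sub', h0, hr]
  rw [hsum]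
  exact Ideal.sum_mem _ fun j hj => hstep j (Finset.mem_range.mp hj)

theorem ofList_ofFn_eq_span_range {R : Type*} [CommRing R] {r : ℕ} (f : Fin r → R) :
    Ideal.ofList (List.ofFn f) = Ideal.span (Set.range f) := by
  rw [Ideal.ofList]
  congr 1
  ext g
  simp [List.mem_ofFn]

theorem ofList_eq_maximalIdeal {𝒪 : Type*} [CommRing 𝒪] [IsLocalRing 𝒪] (ϖ : 𝒪)
    (hϖ : IsLocalRing.maximalIdeal 𝒪 = Ideal.span {ϖ}) (r : ℕ) :
    Ideal.ofList (List.ofFn (fun i : Fin r => (MvPowerSeries.X i : MvPowerSeries (Fin r) 𝒪)) ++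
        [MvPowerSeries.C ϖ]) = IsLocalRing.maximalIdeal (MvPowerSeries (Fin r) 𝒪) := by
  have hmem : ∀ f : MvPowerSeries (Fin r) 𝒪,
      f ∈ IsLocalRing.maximalIdeal (MvPowerSeries (Fin r) 𝒪) ↔
        ϖ ∣ MvPowerSeries.constantCoeff f := by
    intro f
    rw [IsLocalRing.mem_maximalIdeal, mem_nonunits_iff, MvPowerSeries.isUnit_iff_constantCoeff,
      ← mem_nonunits_iff, ← IsLocalRing.mem_maximalIdeal, hϖ, Ideal.mem_span_singleton]
  apply le_antisymm
  · rw [Ideal.ofList, Ideal.span_le]
    intro f hf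
    simp only [List.mem_append, List.mem_ofFn, List.mem_singleton, Set.mem_ofPred_eq] at hf
    rw [SetLike.mem_coe, hmem]
    rcases hf with ⟨i, rfl⟩ | rfl
    · simp
    · simp
  · intro f hf
    rw [hmem] at hf
    obtain ⟨c, hc⟩ := hf
    have h1 := sub_C_constantCoeff_mem_span_X f
    have h2 : f = (f - MvPowerSeries.C (MvPowerSeries.constantCoeff f)) +
        MvPowerSeries.C ϖ * MvPowerSeries.C c := by
      rw [← map_mul, ← hc]; ring
    rw [h2, Ideal.ofList_append, ofList_ofFn_eq_span_range]
    refine Ideal.add_mem _ (Ideal.mem_sup_left h1) (Ideal.mem_sup_right ?_)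
    exact Ideal.mul_mem_right _ _ (Ideal.subset_span (by simp))

/-- The standard regular system of parameters `X₀, …, X_{r-1}, ϖ` of `𝒪⟦X₀, …, X_{r-1}⟧`. -/
noncomputable def stdParams {𝒪 : Type*} [CommRing 𝒪] (r : ℕ) (ϖ : 𝒪) :
    List (MvPowerSeries (Fin r) 𝒪) :=
  List.ofFn (fun i : Fin r => (MvPowerSeries.X i : MvPowerSeries (Fin r) 𝒪)) ++
    [MvPowerSeries.C ϖ]

theorem stdParams_isRegular {𝒪 : Type*} [CommRing 𝒪] [IsDomain 𝒪] [IsLocalRing 𝒪] (r : ℕ)
    (ϖ : 𝒪) (hϖ0 : ϖ ≠ 0) (hϖ : IsLocalRing.maximalIdeal 𝒪 = Ideal.span {ϖ}) :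
    IsRegular (MvPowerSeries (Fin r) 𝒪) (stdParams r ϖ) ∧
      Ideal.ofList (stdParams r ϖ) = IsLocalRing.maximalIdeal (MvPowerSeries (Fin r) 𝒪) := by
  have hmax := ofList_eq_maximalIdeal ϖ hϖ r
  refine ⟨?_, hmax⟩
  have h1 : IsWeaklyRegular 𝒪 [ϖ] := by
    rw [isWeaklyRegular_singleton_iff]
    intro a b hab
    exact mul_left_cancel₀ hϖ0 (by simpa using hab)
  have h2 := isWeaklyRegular_mvPowerSeries [ϖ] h1 r
  refine IsRegular.of_isWeaklyRegular_of_mem_maximalIdeal _ ?_ h2
  intro x hx
  rw [← hmax]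
  exact Ideal.subset_span hx

end Fermat.Agent.S57
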