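import Fermat.Statements.S57
import Fermat.Agent.S57_Core
import Fermat.Agent.S57_PowerSeries
import Fermat.Agent.S57_Artinian

set_option autoImplicit false
set_option linter.style.haveILetI false

open Algebra Algebra.PatchingLevel

namespace Fermat.Agent.S57

open RingTheory.Sequence Pointwise

section

variable {𝒪 : Type} [CommRing 𝒪] {r : ℕ} {R : Type} [CommRing R] [Algebra 𝒪 R]
    {M : Type} [AddCommGroup M] [Module R M]
    (L : Algebra.PatchingLevel 𝒪 r R M ⊥)

/-- The coordinate map `(Fin d → S) → N`, `c ↦ ∑ φ(cᵢ) • bᵢ`. -/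
noncomputable def coordHom : (Fin L.d → MvPowerSeries (Fin r) 𝒪) →+ L.N where
  toFun c := ∑ i, L.φ (c i) • L.b i
  map_zero' := by simp
  map_add' c c' := by simp [add_smul, Finset.sum_add_distrib]

theorem coordHom_apply (c : Fin L.d → MvPowerSeries (Fin r) 𝒪) :
    coordHom L c = ∑ i, L.φ (c i) • L.b i := rfl

theorem coordHom_bijective : Function.Bijective (coordHom L) := by
  constructor
  · rw [injective_iff_map_eq_zero]
    intro c hc
    rw [coordHom_apply, L.b_rel] at hc
    ext1 i
    simpa using hc i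
  · intro x
    obtain ⟨c, hc⟩ := L.b_span x
    exact ⟨c, hc.symm⟩

/-- The coordinate additive equivalence. -/
noncomputable def coordEquiv : (Fin L.d → MvPowerSeries (Fin r) 𝒪) ≃+ L.N :=
  AddEquiv.ofBijective (coordHom L) (coordHom_bijective L)

theorem coordEquiv_smul (s : MvPowerSeries (Fin r) 𝒪) (c : Fin L.d → MvPowerSeries (Fin r) 𝒪) :
    coordEquiv L (s • c) = L.φ s • coordEquiv L c := by
  change coordHom L (s • c) = L.φ s • coordHom L c
  simp [coordHom_apply, Finset.smul_sum, mul_smul]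

theorem finite_N : Module.Finite (MvPowerSeries (Fin r) 𝒪) L.N := by
  refine Module.Finite.of_surjective (Fintype.linearCombination (MvPowerSeries (Fin r) 𝒪) L.b) ?_
  intro x
  obtain ⟨c, hc⟩ := L.b_span x
  refine ⟨fun i => L.φ (c i), ?_⟩
  rw [hc, Fintype.linearCombination_apply]

theorem isWeaklyRegular_N (xs : List (MvPowerSeries (Fin r) 𝒪))
    (h : IsWeaklyRegular (MvPowerSeries (Fin r) 𝒪) xs) :
    IsWeaklyRegular L.N (xs.map L.φ) := by
  have h1 : IsWeaklyRegular (Fin L.d → MvPowerSeries (Fin r) 𝒪) xs := by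
    have := h.isWeaklyRegular_lTensor (M₂ := Fin L.d → MvPowerSeries (Fin r) 𝒪)
    exact (LinearEquiv.isWeaklyRegular_congr (TensorProduct.rid _ _) xs).mp this
  refine (AddEquiv.isWeaklyRegular_congr (e := coordEquiv L) ?_).mp h1
  exact List.forall₂_map_right_iff.mpr (List.forall₂_same.mpr fun s _ c => coordEquiv_smul L s c)

end

theorem free_N {𝒪 : Type} [CommRing 𝒪] [IsDomain 𝒪] [IsDiscreteValuationRing 𝒪]
    {r : ℕ} {R : Type} [CommRing R] [Algebra 𝒪 R]
    {M : Type} [AddCommGroup M] [Module R M] [Nontrivial M]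
    (L : Algebra.PatchingLevel 𝒪 r R M ⊥) : Module.Free (MvPowerSeries (Fin r) 𝒪) L.N := by
  obtain ⟨ϖ, hϖ⟩ := IsDiscreteValuationRing.exists_irreducible 𝒪
  have hmax𝒪 : IsLocalRing.maximalIdeal 𝒪 = Ideal.span {ϖ} := hϖ.maximalIdeal_eq
  obtain ⟨hreg, hmax⟩ := stdParams_isRegular r ϖ hϖ.ne_zero hmax𝒪
  haveI := finite_N L
  haveI : Nontrivial L.N := L.π_surjective.nontrivial
  haveI : Nontrivial R := by
    by_contra h
    rw [not_nontrivial_iff_subsingleton] at h
    exact not_subsingleton M (Module.subsingleton R M)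
  have hys := isWeaklyRegular_N L _ hreg.toIsWeaklyRegular
  have hφC : ∀ a : 𝒪, L.φ (MvPowerSeries.C a) = MvPowerSeries.C a := by
    intro a
    have := L.φ.commutes a
    simpa [MvPowerSeries.algebraMap_apply] using this
  have hCmem : (MvPowerSeries.C ϖ : MvPowerSeries (Fin r) 𝒪) ∈
      Ideal.ofList ((stdParams r ϖ).map L.φ) := by
    refine Ideal.subset_span ?_
    simp only [Set.mem_ofPred_eq, List.mem_map]
    exact ⟨MvPowerSeries.C ϖ, by simp [stdParams], hφC ϖ⟩
  have hmem : ∀ y ∈ (stdParams r ϖ).map L.φ,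
      y ∈ IsLocalRing.maximalIdeal (MvPowerSeries (Fin r) 𝒪) := by
    intro y hy
    simp only [stdParams, List.map_append, List.mem_append, List.mem_map, List.mem_ofFn,
      List.mem_singleton] at hy
    rcases hy with ⟨x, ⟨i, rfl⟩, rfl⟩ | ⟨x, rfl, rfl⟩
    · rw [IsLocalRing.mem_maximalIdeal, mem_nonunits_iff]
      intro hu
      have := hu.map L.ψ
      rw [L.ψ_φ_X i] at this
      exact not_isUnit_zero this
    · rw [hφC, ← hmax]
      exact Ideal.subset_span (by simp [stdParams])
  have hlen : ((stdParams r ϖ).map L.φ).length = (stdParams r ϖ).length := List.length_map _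
  have hfl : IsFiniteLength (MvPowerSeries (Fin r) 𝒪)
      (L.N ⧸ Ideal.ofList ((stdParams r ϖ).map L.φ) •
        (⊤ : Submodule (MvPowerSeries (Fin r) 𝒪) L.N)) := by
    rw [isFiniteLength_iff_isNoetherian_isArtinian]
    refine ⟨inferInstance, ?_⟩
    refine isArtinian_of_residue_span (𝒪 := 𝒪) ?_ (fun i => Submodule.Quotient.mk (L.b i)) ?_
    · intro a ha q
      obtain ⟨x, rfl⟩ := Submodule.Quotient.mk_surjective _ q
      rw [← Submodule.Quotient.mk_smul, Submodule.Quotient.mk_eq_zero]
      refine Submodule.smul_mem_smul ?_ Submodule.mem_top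
      rw [hmax𝒪, Ideal.mem_span_singleton] at ha
      obtain ⟨c, rfl⟩ := ha
      rw [MvPowerSeries.algebraMap_apply, Algebra.algebraMap_self_apply, map_mul]
      exact Ideal.mul_mem_right _ _ hCmem
    · intro q
      obtain ⟨x, rfl⟩ := Submodule.Quotient.mk_surjective _ q
      obtain ⟨c, hc⟩ := L.b_span x
      refine ⟨fun i => MvPowerSeries.constantCoeff (c i), ?_⟩
      simp only [← Submodule.mkQ_apply, ← map_smul]
      rw [← map_sum, Submodule.mkQ_apply, Submodule.mkQ_apply, Submodule.Quotient.eq, hc,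
        ← Finset.sum_sub_distrib]
      refine Submodule.sum_mem _ fun i _ => ?_
      rw [← sub_smul]
      refine Submodule.smul_mem_smul ?_ Submodule.mem_top
      have hmap : Ideal.map (L.φ : MvPowerSeries (Fin r) 𝒪 →+* MvPowerSeries (Fin r) 𝒪)
          (Ideal.ofList (stdParams r ϖ)) = Ideal.ofList ((stdParams r ϖ).map L.φ) :=
        Ideal.map_ofList _ _
      rw [MvPowerSeries.algebraMap_apply, Algebra.algebraMap_self_apply, ← hφC, ← map_sub,
        ← hmap]
      refine Ideal.mem_map_of_mem (L.φ : MvPowerSeries (Fin r) 𝒪 →+* MvPowerSeries (Fin r) 𝒪) ?_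
      have h1 := sub_C_constantCoeff_mem_span_X (c i)
      rw [stdParams, Ideal.ofList_append, ofList_ofFn_eq_span_range]
      exact Ideal.mem_sup_left h1
  exact free_of_isWeaklyRegular_of_isFiniteLength (stdParams r ϖ) hreg hmax
    ((stdParams r ϖ).map L.φ) hys hmem hlen hfl

end Fermat.Agent.S57
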