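import Fermat.Statements.S57
import Fermat.Agent.S57_Patching

set_option autoImplicit false
set_option linter.style.haveILetI false
open Algebra Algebra.PatchingLevel

namespace Fermat.Agent.S57

/-- Coordinates of elements of `I • ⊤` with respect to a basis lie in `I`. -/
theorem repr_mem_of_mem_smul_top {S N ι : Type*} [CommRing S] [AddCommGroup N] [Module S N]
    (bN : Module.Basis ι S N) (I : Ideal S) {x : N} (hx : x ∈ I • (⊤ : Submodule S N)) (j : ι) :
    bN.repr x j ∈ I := by
  rw [← bN.span_eq, Submodule.mem_ideal_smul_span_iff_exists_sum] at hx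
  obtain ⟨a, ha, rfl⟩ := hx
  have : bN.repr (a.sum fun i c => c • bN i) = a := by
    rw [← Finsupp.linearCombination_apply, bN.repr_linearCombination]
  rw [this]
  exact ha j

theorem result
    {𝒪 : Type} [CommRing 𝒪] [IsDomain 𝒪] [IsDiscreteValuationRing 𝒪]
    {r : ℕ} {R : Type} [CommRing R] [Algebra 𝒪 R]
    {M : Type} [AddCommGroup M] [Module R M] [Nontrivial M]
    (L : Algebra.PatchingLevel 𝒪 r R M ⊥) :
    Module.Free R M ∧ Module.annihilator R M = ⊥ ∧
      RingHom.ker L.ψ = Ideal.span (Set.range fun i : Fin r => L.φ (MvPowerSeries.X i)) := by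
  classical
  haveI := free_N L
  haveI := finite_N L
  haveI : Nontrivial L.N := L.π_surjective.nontrivial
  set 𝔞 : Ideal (MvPowerSeries (Fin r) 𝒪) :=
    Ideal.span (Set.range fun i : Fin r => L.φ (MvPowerSeries.X i)) with h𝔞
  let bN := Module.Free.chooseBasis (MvPowerSeries (Fin r) 𝒪) L.N
  obtain ⟨j₀⟩ : Nonempty (Module.Free.ChooseBasisIndex (MvPowerSeries (Fin r) 𝒪) L.N) :=
    bN.index_nonempty
  -- `𝔞 ≤ ker ψ`
  have hle : 𝔞 ≤ RingHom.ker L.ψ := by
    rw [h𝔞, Ideal.span_le]
    rintro _ ⟨i, rfl⟩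
    exact L.ψ_φ_X i
  -- an element acting by zero on `M` lies in `𝔞`
  have hkey : ∀ f : MvPowerSeries (Fin r) 𝒪, L.ψ f • L.π (bN j₀) = 0 → f ∈ 𝔞 := by
    intro f hf
    rw [← L.π_smul, L.ker_π] at hf
    have := repr_mem_of_mem_smul_top bN 𝔞 hf j₀
    simpa using this
  have hker : RingHom.ker L.ψ = 𝔞 := by
    refine le_antisymm (fun f hf => hkey f ?_) hle
    rw [RingHom.mem_ker] at hf
    rw [hf, zero_smul]
  -- the images of the basis vectors form a basis of `M`
  have hπsum : ∀ s : Module.Free.ChooseBasisIndex (MvPowerSeries (Fin r) 𝒪) L.N →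
      MvPowerSeries (Fin r) 𝒪, L.π (∑ i, s i • bN i) = ∑ i, L.ψ (s i) • L.π (bN i) := by
    intro s
    rw [map_sum]
    exact Finset.sum_congr rfl fun i _ => L.π_smul _ _
  have hli : LinearIndependent R (fun i => L.π (bN i)) := by
    rw [Fintype.linearIndependent_iff]
    intro g hg i
    choose s hs using fun i => L.ψ_surjective (g i)
    have h1 : L.π (∑ i, s i • bN i) = 0 := by
      rw [hπsum, ← hg]
      exact Finset.sum_congr rfl fun i _ => by rw [hs]
    rw [L.ker_π] at h1
    have h2 := repr_mem_of_mem_smul_top bN 𝔞 h1 i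
    have h3 : bN.repr (∑ i, s i • bN i) i = s i := by
      simp [Finsupp.single_apply]
    rw [h3] at h2
    rw [← hs i]
    exact hle h2
  have hsp : ⊤ ≤ Submodule.span R (Set.range fun i => L.π (bN i)) := by
    rintro m -
    obtain ⟨x, rfl⟩ := L.π_surjective m
    rw [← bN.sum_repr x, hπsum]
    exact Submodule.sum_mem _ fun i _ =>
      Submodule.smul_mem _ _ (Submodule.subset_span ⟨i, rfl⟩)
  refine ⟨Module.Free.of_basis (Module.Basis.mk hli hsp), ?_, hker⟩
  rw [eq_bot_iff]
  intro ρ hρ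
  obtain ⟨f, rfl⟩ := L.ψ_surjective ρ
  rw [Module.mem_annihilator] at hρ
  have := hle (hkey f (hρ _))
  rwa [RingHom.mem_ker] at this

end Fermat.Agent.S57
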